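import Fermat.Agent.Ribet.H924.Up
import Fermat.Agent.Ribet.H801.DegKummer

/-!
# Row 37, WALL-q, leaf (Q3) EIGEN-LIFT-3 (helper924): the step DOWN and the assembly

Target: `H523.Q3.EigenLiftThreeStatement` (`q = 3`, `M'` odd, `3 ∤ M'`), through the level `2M'`
(which is a good level for `q = 3`).

* `EigenLiftStrongStatement` : EIGEN-LIFT at the good levels in its STRONG form — the lifted
  eigenclass `z` comes with a Kummer generator `f` whose reduction is `c · h · u ^ p`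
  (`u ∈ k(X₀(M))`).  This is what the lifting argument (GR-SURJ + KUM-RED) produces: the
  reduction of `z` IS the class of `div h / p`.
* `occursIn_down` : **DOWN**.  For `z' ∈ J₀(2M')[p]` eigen with such a Kummer generator,
  `z = α_* z' ∈ J₀(M')[p]` is eigen and NONZERO: otherwise `N_α f' = g ^ p`
  (`H801.alphaL_mk_eq_zero_iff`), and reducing (`normRed_kummer_to`, NORM-RED in residue
  characteristic `3`) gives `c₁ · h ^ 3 · v ^ p = w · ḡ ^ p` in `k(X₀(M'))`, so `h` is a constant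
  times a `p`-th power (`gcd (3, p) = 1`).
* `eigenLiftThree_of : EigenLiftStrongStatement → H523.Q3.EigenLiftThreeStatement`.
-/

set_option autoImplicit false
set_option linter.style.haveILetI false
set_option linter.unusedSectionVars false
set_option synthInstance.maxHeartbeats 400000
set_option maxHeartbeats 1600000

noncomputable section

namespace Fermat.Agent.Ribet.H924

open AlgebraicCurve ModularCurve HahnSeries IsLocalRing
open Fermat.Agent.S24 Fermat.Agent.A2.H708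
open Fermat.Agent.S37.Red (Qb FN FNk ModVG modO modρ)
open Fermat.Agent.Ribet.Spec (OccursIn)
open Fermat.Agent.Ribet.H944.Wall (EigenAt)
open Fermat.Agent.Ribet.H884 (IsKummerGen IsRedInf kA)
open Fermat.Agent.Ribet.H997 (IsRedSer)
open Fermat.Agent.Ribet.H158.WallQ (PPowSeries)
open Fermat.Agent.Ribet.H523.Q3 (KronEigen IsRedEigen EigenLiftThreeStatement)
open Fermat.Agent.S29.H395 (normAlong)
open Fermat.Agent.S29.H801 (alphaTo)

/-- **EIGEN-LIFT at the good levels, strong form**: the lifted eigenclass has a Kummer generator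
whose reduction is `c · h · u ^ p` with `u ∈ k(X₀(M))`. -/
def EigenLiftStrongStatement : Prop :=
  ∀ (p q M : ℕ) [NeZero M], p.Prime → 5 ≤ p → q.Prime → q ≠ 2 → q ≠ p → ¬ q ∣ M →
    (5 ≤ q ∨ 2 ∣ M) →
    ∀ A : ValuationSubring Kbar, A.LiesOverPrime q →
    ∀ (S : Finset ℕ) (a : ℕ → ℤ) (h : modularFunctionFieldFullC (kA A) M),
      IsRedEigen p M S a h →
      ∃ (S' : Finset ℕ) (z : JZero M) (f : FF M) (c : kA A)
        (u : modularFunctionFieldFullC (kA A) M),
        S ⊆ S' ∧ p • z = 0 ∧ EigenAt M S' a z ∧ IsKummerGen M p f z ∧ c ≠ 0 ∧ u ≠ 0 ∧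
        IsRedInf M A f
          (HahnSeries.C c * (h : LaurentSeries (kA A)) * (u : LaurentSeries (kA A)) ^ p)

/-- Bezout descent: `h ^ d = c · g ^ p` and `d s + p t = 1` give `h = c ^ s · (g ^ s h ^ t) ^ p`. -/
theorem eq_zpow_mul_pow_of_pow {F : Type*} [Field F] (p d : ℕ) {h c g : F} (hh : h ≠ 0)
    (hg : h ^ d = c * g ^ p) (s t : ℤ) (hst : (d : ℤ) * s + (p : ℤ) * t = 1) :
    h = c ^ s * (g ^ s * h ^ t) ^ p := by
  have h1 : h = (h ^ d) ^ s * (h ^ t) ^ p := by
    rw [← zpow_natCast h d, ← zpow_mul, ← zpow_natCast (h ^ t) p, ← zpow_mul,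
      ← zpow_add₀ hh, mul_comm t, hst, zpow_one]
  have h2 : c ^ s * (g ^ s * h ^ t) ^ p = (c * g ^ p) ^ s * (h ^ t) ^ p := by
    rw [mul_zpow, mul_pow, ← zpow_natCast (g ^ s) p, ← zpow_mul, ← zpow_natCast g p,
      ← zpow_mul, mul_comm s (p : ℤ)]
    ring
  rw [h2, ← hg]
  exact h1

/-- **UP**, with the top level renamed. -/
theorem isRedEigen_up_to {p M ℓ N' : ℕ} [NeZero M] [NeZero ℓ] [NeZero N'] (hN' : M * ℓ = N')
    {A : ValuationSubring Kbar} (hℓ : ℓ.Prime) (hℓM : ¬ ℓ ∣ M) (hcop : Nat.Coprime (ℓ + 1) p)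
    (hchar : ∀ r : ℕ, r.Prime → r ∣ M * ℓ → ((r : ℕ) : kA A) ≠ 0) {S : Finset ℕ} {a : ℕ → ℤ}
    {h : modularFunctionFieldFullC (kA A) M} (hh : IsRedEigen p M S a h) :
    ∃ h' : modularFunctionFieldFullC (kA A) N',
      (h' : LaurentSeries (kA A)) = (h : LaurentSeries (kA A)) ∧ IsRedEigen p N' S a h' := by
  subst hN'
  exact ⟨inclK M ℓ A h, coe_inclK M ℓ A h, isRedEigen_up hℓ hℓM hcop hchar hh⟩

section Down

variable {p M' : ℕ} [NeZero M'] [NeZero (2 * M')] {A : ValuationSubring Kbar}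

/-- **DOWN**: `α_*` of the strong lift at level `2M'` is a nonzero eigenclass at level `M'`. -/
theorem occursIn_down (hp : p.Prime) (hp5 : 5 ≤ p) (h3M : ¬ 3 ∣ M') (h2M : ¬ 2 ∣ M')
    (hA : A.LiesOverPrime 3) {S' : Finset ℕ} {a : ℕ → ℤ}
    (h : modularFunctionFieldFullC (kA A) M') (hh0 : h ≠ 0)
    (hnpow : ¬ PPowSeries p M' (h : LaurentSeries (kA A)))
    (z' : JZero (2 * M')) (f' : FF (2 * M')) (c : kA A)
    (u : modularFunctionFieldFullC (kA A) (2 * M')) (hz' : p • z' = 0)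
    (heig : EigenAt (2 * M') S' a z') (hK : IsKummerGen (2 * M') p f' z') (hc : c ≠ 0)
    (hu : u ≠ 0)
    (hred : IsRedInf (2 * M') A f'
      (HahnSeries.C c * (h : LaurentSeries (kA A)) * (u : LaurentSeries (kA A)) ^ p)) :
    OccursIn M' p (S' ∪ {2}) a := by
  have h3 : Nat.Prime 3 := Nat.prime_three
  have h2 : Nat.Prime 2 := Nat.prime_two
  refine ⟨Fermat.Agent.Ribet.H801.alphaL 2 M' z', ?_, ?_, ?_⟩
  · -- nonzero
    intro hz0
    obtain ⟨hf'0, D, hD, hord⟩ := hK
    rw [← hD] at hz0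
    obtain ⟨g, hg0, hNg⟩ := (Fermat.Agent.Ribet.H801.alphaL_mk_eq_zero_iff 2 M' (m := p)
      hp.ne_zero D hf'0 (fun w => (hord w).symm)).mp hz0
    -- NORM-RED
    obtain ⟨c₁, v, hc₁, hv, hNred⟩ := normRed_kummer_to (Nat.mul_comm M' 2) h3 h2 h3M
      (by decide) h2M hA p f' c h u hc hu hred
    rw [hNg] at hNred
    -- a reduction of `g`
    have hVG₀ : ModVG M' A := modVG_of_prime h3 h3M hA
    obtain ⟨cg, ug, hcg, hug, hgu⟩ := exists_cst_mul_unit hVG₀ hg0
    have hredg : IsRedInf M' A g ((modρ hVG₀ ug : FNk A M') : LaurentSeries (kA A)) := by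
      have h1 := isRedSer_cst_mul (isRedSer_of_modO hVG₀ ug hug) hcg
      show IsRedSer A (g : LaurentSeries Kbar) _
      rw [hgu]
      exact h1
    have hredgp := Fermat.Agent.Ribet.H944.I2.isRedInf_pow M' A hredg p
    obtain ⟨w, hw, hw'⟩ := Fermat.Agent.Ribet.H997.isRedInf_unique hredgp hNred
    -- the identity in `k(X₀(M'))`
    set R : FNk A M' := modρ hVG₀ ug with hR
    have hfield : algebraMap (kA A) (FNk A M') c₁ * h ^ (2 + 1) * v ^ p
        = algebraMap (kA A) (FNk A M') w * R ^ p := by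
      apply Subtype.ext
      show ((algebraMap (kA A) (FNk A M') c₁ : FNk A M') : LaurentSeries (kA A))
          * (h : LaurentSeries (kA A)) ^ (2 + 1) * (v : LaurentSeries (kA A)) ^ p
        = ((algebraMap (kA A) (FNk A M') w : FNk A M') : LaurentSeries (kA A))
          * (R : LaurentSeries (kA A)) ^ p
      rw [coe_algebraMap_fullC, coe_algebraMap_fullC]
      exact hw'
    have hc₁' : algebraMap (kA A) (FNk A M') c₁ ≠ 0 :=
      (map_ne_zero_iff _ (algebraMap (kA A) (FNk A M')).injective).mpr hc₁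
    have hpow3 : h ^ (2 + 1) = algebraMap (kA A) (FNk A M') (w * c₁⁻¹) * (R * v⁻¹) ^ p := by
      rw [map_mul, map_inv₀, mul_pow, inv_pow]
      have hvp : v ^ p ≠ 0 := pow_ne_zero p hv
      field_simp
      rw [← hfield]
      ring
    have hcop : Nat.Coprime (2 + 1) p := by
      rw [Nat.coprime_comm]
      apply (Nat.Prime.coprime_iff_not_dvd hp).mpr
      intro hdvd
      have := Nat.le_of_dvd (by norm_num) hdvd
      omega
    obtain ⟨s, t, hst⟩ := exists_bezout_int hcop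
    have key := eq_zpow_mul_pow_of_pow p (2 + 1) hh0 hpow3 s t hst
    apply hnpow
    have hR0 : R ≠ 0 := hug
    refine ⟨(w * c₁⁻¹) ^ s, (R * v⁻¹) ^ s * h ^ t,
      zpow_ne_zero _ (mul_ne_zero hw (inv_ne_zero hc₁)),
      mul_ne_zero (zpow_ne_zero _ (mul_ne_zero hR0 (inv_ne_zero hv))) (zpow_ne_zero _ hh0), ?_⟩
    have key' := congrArg (fun z : FNk A M' => (z : LaurentSeries (kA A))) key
    rw [← map_zpow₀] at key'
    refine key'.trans ?_
    show ((algebraMap (kA A) (FNk A M') ((w * c₁⁻¹) ^ s) : FNk A M') : LaurentSeries (kA A))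
      * (((R * v⁻¹) ^ s * h ^ t : FNk A M') : LaurentSeries (kA A)) ^ p = _
    rw [coe_algebraMap_fullC]
  · rw [← map_nsmul, hz', map_zero]
  · intro ℓ hℓ
    have hℓS : (ℓ : ℕ) ∉ S' := fun hS => hℓ (Finset.mem_union_left _ hS)
    have hℓ2 : (ℓ : ℕ) ≠ 2 := fun h2' => hℓ (Finset.mem_union_right _ (Finset.mem_singleton.mpr h2'))
    rw [← Fermat.Agent.Ribet.H801.alphaL_heckeOperatorBar 2 M' h2 ℓ hℓ2, heig ℓ hℓS, map_zsmul]

end Down

/-- **EIGEN-LIFT-3** from the strong form of EIGEN-LIFT at the good level `2M'`. -/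
theorem eigenLiftThree_of (hS : EigenLiftStrongStatement) : EigenLiftThreeStatement := by
  intro p M' _ hp hp5 h3M h2M A hA S a h hh
  have h3 : Nat.Prime 3 := Nat.prime_three
  have h2 : Nat.Prime 2 := Nat.prime_two
  haveI : NeZero (2 * M') := ⟨Nat.mul_ne_zero (by norm_num) (NeZero.ne M')⟩
  have hcop : Nat.Coprime (2 + 1) p := by
    rw [Nat.coprime_comm]
    apply (Nat.Prime.coprime_iff_not_dvd hp).mpr
    intro hdvd
    have := Nat.le_of_dvd (by norm_num) hdvd
    omega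
  have h3M2 : ¬ 3 ∣ M' * 2 := by
    intro hd
    rcases (Nat.Prime.dvd_mul h3).mp hd with hd | hd
    · exact h3M hd
    · exact absurd hd (by decide)
  have h3M2' : ¬ 3 ∣ 2 * M' := by rwa [Nat.mul_comm]
  have hchar := natCast_ne_zero_kk h3 h3M2 hA
  obtain ⟨h', hh', hup⟩ := isRedEigen_up_to (Nat.mul_comm M' 2) h2 h2M hcop hchar hh
  obtain ⟨S', z', f', c, u, hSS', hz', heig, hK, hc, hu, hred⟩ :=
    hS p 3 (2 * M') hp hp5 h3 (by decide) (by omega) h3M2' (Or.inr (dvd_mul_right 2 M')) A hA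
      S a h' hup
  rw [hh'] at hred
  exact ⟨S' ∪ {2}, hSS'.trans Finset.subset_union_left,
    occursIn_down hp hp5 h3M h2M hA h hh.1 hh.2.2.1 z' f' c u hz' heig hK hc hu hred⟩

end Fermat.Agent.Ribet.H924
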