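import Fermat.Agent.S37.H217.Lattice

/-!
# Row 37, WALL-q, leaf (Q3) EIGEN-LIFT-3 (helper924): abstract lemmas

* `norm_red_rel` : norms commute with reduction for a finite extension `L / L₀` of valued fields
  in the inert case (`e = 1`, `f = n`): `V₀ ⊆ L₀`, `V ⊆ L` valuation subrings with `V ∩ L₀ = V₀`,
  compatible ring homs `ρ₀ : V₀ → R₁`, `ρ : V ↠ S₁` onto fields with `[L : L₀] = [S₁ : R₁]`.
  (Relative version of `S37.H217.norm_red`; the proof is the same, from
  `S37.H217.map_norm_eq_norm_map`.)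
* `exists_pow_of_norm` : descent of "constant times a `p`-th power" along an extension of degree
  prime to `p` (norm argument).
-/

set_option autoImplicit false

namespace Fermat.Agent.Ribet.H924

open Fermat.Agent.S37.H217

section NormRed

variable {L₀ L R₁ S₁ : Type*} [Field L₀] [Field L] [Algebra L₀ L] [Field R₁] [Field S₁]
  [Algebra R₁ S₁]

/-- **Norms commute with reduction** (inert case, relative form). -/
theorem norm_red_rel [FiniteDimensional L₀ L] [FiniteDimensional R₁ S₁]
    {V₀ : ValuationSubring L₀} {V : ValuationSubring L} (h : ValExtends V₀ V)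
    (ρ₀ : V₀ →+* R₁) (ρ : V →+* S₁) (hρsurj : Function.Surjective ρ)
    (hρ : ∀ a : V₀, ρ ⟨algebraMap L₀ L a, (h a).mpr a.2⟩ = algebraMap R₁ S₁ (ρ₀ a))
    (hfr : Module.finrank L₀ L = Module.finrank R₁ S₁) (y : V) :
    ∃ hN : Algebra.norm L₀ (y : L) ∈ V₀, ρ₀ ⟨_, hN⟩ = Algebra.norm R₁ (ρ y) := by
  classical
  -- kernels are the maximal ideals
  have hker : ∀ z : V, ρ z = 0 ↔ (z : L) ∈ V.nonunits := by
    intro z
    have hmax := IsLocalRing.eq_maximalIdeal (RingHom.ker_isMaximal_of_surjective ρ hρsurj)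
    rw [ValuationSubring.coe_mem_nonunits_iff, ← hmax, RingHom.mem_ker]
  set b₁ := Module.finBasis R₁ S₁ with hb₁def
  choose e he using fun i => hρsurj (b₁ i)
  have hR : ResidIndep V₀ V (fun i => ((e i : V) : L)) := by
    intro c hc hsum
    set s : V := ∑ i, (⟨algebraMap L₀ L (c i), (h (c i)).mpr (hc i)⟩ : V) * e i with hs
    have hsF : (s : L) = ∑ i, c i • ((e i : V) : L) := by
      rw [hs, ← ValuationSubring.subtype_apply, map_sum]
      refine Finset.sum_congr rfl fun i _ => ?_
      rw [map_mul, Algebra.smul_def]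
      rfl
    have hρs : ρ s = 0 := by
      rw [hker, hsF]
      exact hsum
    have hρs' : ∑ i, ρ₀ ⟨c i, hc i⟩ • b₁ i = 0 := by
      rw [← hρs, hs, map_sum]
      refine Finset.sum_congr rfl fun i _ => ?_
      rw [map_mul, he, Algebra.smul_def]
      congr 1
      exact (hρ ⟨c i, hc i⟩).symm
    have hzero := Fintype.linearIndependent_iff.mp b₁.linearIndependent _ hρs'
    intro i
    have h1 : ρ ⟨algebraMap L₀ L (c i), (h (c i)).mpr (hc i)⟩ = 0 := by
      rw [hρ ⟨c i, hc i⟩, hzero i, map_zero]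
    rw [hker] at h1
    exact (h.mem_nonunits_iff (c i)).mp h1
  have : Nonempty (Fin (Module.finrank R₁ S₁)) := ⟨⟨0, Module.finrank_pos⟩⟩
  obtain ⟨b, hb⟩ := exists_basis_of_residIndep hR (by rw [Fintype.card_fin, hfr])
  have hbi : ∀ i, b i = ((e i : V) : L) := fun i => congrFun hb i
  have hR' : ResidIndep V₀ V b := by rw [hb]; exact hR
  have hbO : ∀ i, b i ∈ V := fun i => by rw [hbi]; exact (e i).2
  have key := map_norm_eq_norm_map h b hR' hbO ρ₀ ρ hρ b₁ (fun i => by
      have : (⟨b i, hbO i⟩ : V) = e i := Subtype.ext (hbi i)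
      rw [this, he]) y
  exact ⟨norm_mem h b hR' hbO y.2, key⟩

end NormRed

section PowDescent

variable {F F' : Type*} [Field F] [Field F'] [Algebra F F']

/-- If `h ∈ F` is `c · g ^ p` in a finite extension `F'` of degree `d` prime to `p`
(`c ∈ F`), then `h = c' · g' ^ p` already in `F`, with `c' = c ^ (d·s)` for a Bezout coefficient
`s`: precisely `h = (c ^ d) ^ s * (N g ^ s * h ^ t) ^ p` whenever `d s + p t = 1`. -/
theorem eq_zpow_mul_pow_of_norm [FiniteDimensional F F'] (p : ℕ) {h c : F} {g : F'}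
    (hh : h ≠ 0) (hg : algebraMap F F' h = algebraMap F F' c * g ^ p) (s t : ℤ)
    (hst : (Module.finrank F F' : ℤ) * s + (p : ℤ) * t = 1) :
    h = (c ^ Module.finrank F F') ^ s * (Algebra.norm F g ^ s * h ^ t) ^ p := by
  have hN := congrArg (Algebra.norm F) hg
  rw [Algebra.norm_algebraMap, map_mul, Algebra.norm_algebraMap, map_pow] at hN
  -- `h ^ d = c ^ d * (N g) ^ p`
  have h1 : h = (h ^ Module.finrank F F') ^ s * (h ^ t) ^ p := by
    rw [← zpow_natCast h (Module.finrank F F'), ← zpow_mul, ← zpow_natCast (h ^ t) p, ← zpow_mul,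
      ← zpow_add₀ hh, mul_comm t, hst, zpow_one]
  have h2 : (c ^ Module.finrank F F') ^ s * (Algebra.norm F g ^ s * h ^ t) ^ p
      = (c ^ Module.finrank F F' * Algebra.norm F g ^ p) ^ s * (h ^ t) ^ p := by
    rw [mul_zpow, mul_pow, ← zpow_natCast (Algebra.norm F g ^ s) p, ← zpow_mul,
      ← zpow_natCast (Algebra.norm F g) p, ← zpow_mul, mul_comm s (p : ℤ)]
    ring
  rw [h2, ← hN]
  exact h1

end PowDescent

end Fermat.Agent.Ribet.H924
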