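import Fermat.Agent.Ribet.H924.EigenLiftThree

/-!
# WALL-q, leaf (Q3) EIGEN-LIFT: the GENERIC `α`-descent (helper924)

`Ribet/H924/EigenLiftThree.lean` treats the corner case `q = 3`, `M'` odd through the level
`2M'`.  Nothing there is special to `(q, ℓ) = (3, 2)`: for primes `q ≠ ℓ` with `q ∤ M'`,
`ℓ ∤ M'` and ANY prime `p ≠ q` with `gcd (ℓ + 1, p) = 1` (no `5 ≤ p`, no `q ≠ 2`, `p ∣ M'`
allowed), the strong form of EIGEN-LIFT at the ONE level `ℓ M'` gives EIGEN-LIFT at the level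
`M'`:

* `StrongLiftAt p N A` : the conclusion of `EigenLiftStrongStatement` at the level `N` and the
  valuation ring `A`;
* `occursIn_down_gen` : **DOWN** (`z = α_* z'` is a nonzero eigenclass of level `M'`);
* `eigenLift_descend_alpha` : `StrongLiftAt p (ℓ * M') A → ∀ S a h, IsRedEigen p M' S a h →
    ∃ S', S ⊆ S' ∧ OccursIn M' p S' a`;
* instances: `eigenLift_two_of_three` (`q = 2`, through the level `3M'`: the twin of
  EIGEN-LIFT-3) and `eigenLift_three_of_two` (`q = 3`, through `2M'`, now for every prime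
  `p ≠ 3`).
-/

set_option autoImplicit false
set_option linter.style.haveILetI false
set_option linter.unusedSectionVars false
set_option synthInstance.maxHeartbeats 400000
set_option maxHeartbeats 1600000

noncomputable section

namespace Fermat.Agent.Ribet.H924

open AlgebraicCurve ModularCurve HahnSeries IsLocalRing
open Fermat.Agent.S24 Fermat.Agent.A2.H708
open Fermat.Agent.S37.Red (Qb FN FNk ModVG modO modρ)
open Fermat.Agent.Ribet.Spec (OccursIn)
open Fermat.Agent.Ribet.H944.Wall (EigenAt)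
open Fermat.Agent.Ribet.H884 (IsKummerGen IsRedInf kA)
open Fermat.Agent.Ribet.H997 (IsRedSer)
open Fermat.Agent.Ribet.H158.WallQ (PPowSeries)
open Fermat.Agent.Ribet.H523.Q3 (KronEigen IsRedEigen)
open Fermat.Agent.S29.H395 (normAlong)
open Fermat.Agent.S29.H801 (alphaTo)

/-- **Strong EIGEN-LIFT at ONE level** `N` (residue field of `A`): every Kummer function `h` of
a nonzero eigenclass of `Pic⁰(X₀(N)_k)[p]` lifts to an eigenclass `z ∈ J₀(N)[p]` with a Kummer
generator whose reduction is `c · h · u ^ p`. -/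
def StrongLiftAt (p N : ℕ) [NeZero N] (A : ValuationSubring Kbar) : Prop :=
  ∀ (S : Finset ℕ) (a : ℕ → ℤ) (h : modularFunctionFieldFullC (kA A) N),
    IsRedEigen p N S a h →
    ∃ (S' : Finset ℕ) (z : JZero N) (f : FF N) (c : kA A)
      (u : modularFunctionFieldFullC (kA A) N),
      S ⊆ S' ∧ p • z = 0 ∧ EigenAt N S' a z ∧ IsKummerGen N p f z ∧ c ≠ 0 ∧ u ≠ 0 ∧
      IsRedInf N A f
        (HahnSeries.C c * (h : LaurentSeries (kA A)) * (u : LaurentSeries (kA A)) ^ p)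

/-- The strong statement at good levels gives `StrongLiftAt`. -/
theorem strongLiftAt_of_strong (hS : EigenLiftStrongStatement) {p q N : ℕ} [NeZero N]
    (hp : p.Prime) (hp5 : 5 ≤ p) (hq : q.Prime) (hq2 : q ≠ 2) (hqp : q ≠ p) (hqN : ¬ q ∣ N)
    (hgood : 5 ≤ q ∨ 2 ∣ N) {A : ValuationSubring Kbar} (hA : A.LiesOverPrime q) :
    StrongLiftAt p N A :=
  fun S a h hh => hS p q N hp hp5 hq hq2 hqp hqN hgood A hA S a h hh

section DownGen

variable {p q ℓ M' : ℕ} [NeZero M'] [NeZero ℓ] [NeZero (ℓ * M')] {A : ValuationSubring Kbar}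

/-- **DOWN**, generic: `α_*` of the strong lift at level `ℓ M'` is a nonzero eigenclass at
level `M'`, provided `gcd (ℓ + 1, p) = 1`. -/
theorem occursIn_down_gen (hp : p.Prime) (hq : q.Prime) (hℓ : ℓ.Prime) (hqℓ : q ≠ ℓ)
    (hqM : ¬ q ∣ M') (hℓM : ¬ ℓ ∣ M') (hcop : Nat.Coprime (ℓ + 1) p)
    (hA : A.LiesOverPrime q) {S' : Finset ℕ} {a : ℕ → ℤ}
    (h : modularFunctionFieldFullC (kA A) M') (hh0 : h ≠ 0)
    (hnpow : ¬ PPowSeries p M' (h : LaurentSeries (kA A)))
    (z' : JZero (ℓ * M')) (f' : FF (ℓ * M')) (c : kA A)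
    (u : modularFunctionFieldFullC (kA A) (ℓ * M')) (hz' : p • z' = 0)
    (heig : EigenAt (ℓ * M') S' a z') (hK : IsKummerGen (ℓ * M') p f' z') (hc : c ≠ 0)
    (hu : u ≠ 0)
    (hred : IsRedInf (ℓ * M') A f'
      (HahnSeries.C c * (h : LaurentSeries (kA A)) * (u : LaurentSeries (kA A)) ^ p)) :
    OccursIn M' p (S' ∪ {ℓ}) a := by
  refine ⟨Fermat.Agent.Ribet.H801.alphaL ℓ M' z', ?_, ?_, ?_⟩
  · -- nonzero
    intro hz0
    obtain ⟨hf'0, D, hD, hord⟩ := hK
    rw [← hD] at hz0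
    obtain ⟨g, hg0, hNg⟩ := (Fermat.Agent.Ribet.H801.alphaL_mk_eq_zero_iff ℓ M' (m := p)
      hp.ne_zero D hf'0 (fun w => (hord w).symm)).mp hz0
    -- NORM-RED
    obtain ⟨c₁, v, hc₁, hv, hNred⟩ := normRed_kummer_to (Nat.mul_comm M' ℓ) hq hℓ hqM
      hqℓ hℓM hA p f' c h u hc hu hred
    rw [hNg] at hNred
    -- a reduction of `g`
    have hVG₀ : ModVG M' A := modVG_of_prime hq hqM hA
    obtain ⟨cg, ug, hcg, hug, hgu⟩ := exists_cst_mul_unit hVG₀ hg0
    have hredg : IsRedInf M' A g ((modρ hVG₀ ug : FNk A M') : LaurentSeries (kA A)) := by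
      have h1 := isRedSer_cst_mul (isRedSer_of_modO hVG₀ ug hug) hcg
      show IsRedSer A (g : LaurentSeries Kbar) _
      rw [hgu]
      exact h1
    have hredgp := Fermat.Agent.Ribet.H944.I2.isRedInf_pow M' A hredg p
    obtain ⟨w, hw, hw'⟩ := Fermat.Agent.Ribet.H997.isRedInf_unique hredgp hNred
    -- the identity in `k(X₀(M'))`
    set R : FNk A M' := modρ hVG₀ ug with hR
    have hfield : algebraMap (kA A) (FNk A M') c₁ * h ^ (ℓ + 1) * v ^ p
        = algebraMap (kA A) (FNk A M') w * R ^ p := by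
      apply Subtype.ext
      show ((algebraMap (kA A) (FNk A M') c₁ : FNk A M') : LaurentSeries (kA A))
          * (h : LaurentSeries (kA A)) ^ (ℓ + 1) * (v : LaurentSeries (kA A)) ^ p
        = ((algebraMap (kA A) (FNk A M') w : FNk A M') : LaurentSeries (kA A))
          * (R : LaurentSeries (kA A)) ^ p
      rw [coe_algebraMap_fullC, coe_algebraMap_fullC]
      exact hw'
    have hc₁' : algebraMap (kA A) (FNk A M') c₁ ≠ 0 :=
      (map_ne_zero_iff _ (algebraMap (kA A) (FNk A M')).injective).mpr hc₁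
    have hpow3 : h ^ (ℓ + 1) = algebraMap (kA A) (FNk A M') (w * c₁⁻¹) * (R * v⁻¹) ^ p := by
      rw [map_mul, map_inv₀, mul_pow, inv_pow]
      have hvp : v ^ p ≠ 0 := pow_ne_zero p hv
      field_simp
      rw [← hfield]
      ring
    obtain ⟨s, t, hst⟩ := exists_bezout_int hcop
    have key := eq_zpow_mul_pow_of_pow p (ℓ + 1) hh0 hpow3 s t hst
    apply hnpow
    have hR0 : R ≠ 0 := hug
    refine ⟨(w * c₁⁻¹) ^ s, (R * v⁻¹) ^ s * h ^ t,
      zpow_ne_zero _ (mul_ne_zero hw (inv_ne_zero hc₁)),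
      mul_ne_zero (zpow_ne_zero _ (mul_ne_zero hR0 (inv_ne_zero hv))) (zpow_ne_zero _ hh0), ?_⟩
    have key' := congrArg (fun z : FNk A M' => (z : LaurentSeries (kA A))) key
    rw [← map_zpow₀] at key'
    refine key'.trans ?_
    show ((algebraMap (kA A) (FNk A M') ((w * c₁⁻¹) ^ s) : FNk A M') : LaurentSeries (kA A))
      * (((R * v⁻¹) ^ s * h ^ t : FNk A M') : LaurentSeries (kA A)) ^ p = _
    rw [coe_algebraMap_fullC]
  · rw [← map_nsmul, hz', map_zero]
  · intro r hr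
    have hrS : (r : ℕ) ∉ S' := fun hS => hr (Finset.mem_union_left _ hS)
    have hrℓ : (r : ℕ) ≠ ℓ :=
      fun h2' => hr (Finset.mem_union_right _ (Finset.mem_singleton.mpr h2'))
    rw [← Fermat.Agent.Ribet.H801.alphaL_heckeOperatorBar ℓ M' hℓ r hrℓ, heig r hrS, map_zsmul]

end DownGen

/-- **The generic `α`-descent of EIGEN-LIFT**: from the strong lift at the level `ℓ M'` to
EIGEN-LIFT at the level `M'`, for primes `q ≠ ℓ` not dividing `M'` and every prime `p` with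
`gcd (ℓ + 1, p) = 1`. -/
theorem eigenLift_descend_alpha {p q ℓ M' : ℕ} [NeZero M'] [NeZero (ℓ * M')] (hp : p.Prime)
    (hq : q.Prime) (hℓ : ℓ.Prime) (hqℓ : q ≠ ℓ) (hqM : ¬ q ∣ M') (hℓM : ¬ ℓ ∣ M')
    (hcop : Nat.Coprime (ℓ + 1) p) {A : ValuationSubring Kbar} (hA : A.LiesOverPrime q)
    (hS : StrongLiftAt p (ℓ * M') A)
    (S : Finset ℕ) (a : ℕ → ℤ) (h : modularFunctionFieldFullC (kA A) M')
    (hh : IsRedEigen p M' S a h) :
    ∃ S' : Finset ℕ, S ⊆ S' ∧ OccursIn M' p S' a := by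
  haveI : NeZero ℓ := ⟨hℓ.ne_zero⟩
  have hqMℓ : ¬ q ∣ M' * ℓ := by
    intro hd
    rcases (Nat.Prime.dvd_mul hq).mp hd with hd | hd
    · exact hqM hd
    · exact hqℓ ((Nat.prime_dvd_prime_iff_eq hq hℓ).mp hd)
  have hchar := natCast_ne_zero_kk hq hqMℓ hA
  obtain ⟨h', hh', hup⟩ := isRedEigen_up_to (Nat.mul_comm M' ℓ) hℓ hℓM hcop hchar hh
  obtain ⟨S', z', f', c, u, hSS', hz', heig, hK, hc, hu, hred⟩ := hS S a h' hup
  rw [hh'] at hred
  exact ⟨S' ∪ {ℓ}, hSS'.trans Finset.subset_union_left,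
    occursIn_down_gen hp hq hℓ hqℓ hqM hℓM hcop hA h hh.1 hh.2.2.1 z' f' c u hz' heig hK hc hu
      hred⟩

/-- `gcd (3 + 1, p) = 1` for every odd prime `p`. -/
theorem coprime_four_of_odd {p : ℕ} (hp : p.Prime) (hp2 : p ≠ 2) : Nat.Coprime (3 + 1) p := by
  rw [Nat.coprime_comm]
  apply (Nat.Prime.coprime_iff_not_dvd hp).mpr
  intro hdvd
  have h4 : p ∣ 2 * 2 := by simpa using hdvd
  rcases (Nat.Prime.dvd_mul hp).mp h4 with h | h <;>
    exact hp2 ((Nat.prime_dvd_prime_iff_eq hp Nat.prime_two).mp h)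

/-- `gcd (2 + 1, p) = 1` for every prime `p ≠ 3`. -/
theorem coprime_three_of_ne {p : ℕ} (hp : p.Prime) (hp3 : p ≠ 3) : Nat.Coprime (2 + 1) p := by
  rw [Nat.coprime_comm]
  apply (Nat.Prime.coprime_iff_not_dvd hp).mpr
  intro hdvd
  exact hp3 ((Nat.prime_dvd_prime_iff_eq hp Nat.prime_three).mp (by simpa using hdvd))

/-- **EIGEN-LIFT-2** (`q = 2`, `3 ∤ M'`), the twin of EIGEN-LIFT-3: through the level `3M'`
(a good level for `q = 2`), for every odd prime `p` (`p = 3` included). -/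
theorem eigenLift_two_of_three {p M' : ℕ} [NeZero M'] [NeZero (3 * M')] (hp : p.Prime)
    (hp2 : p ≠ 2) (h2M : ¬ 2 ∣ M') (h3M : ¬ 3 ∣ M') {A : ValuationSubring Kbar}
    (hA : A.LiesOverPrime 2) (hS : StrongLiftAt p (3 * M') A)
    (S : Finset ℕ) (a : ℕ → ℤ) (h : modularFunctionFieldFullC (kA A) M')
    (hh : IsRedEigen p M' S a h) :
    ∃ S' : Finset ℕ, S ⊆ S' ∧ OccursIn M' p S' a :=
  eigenLift_descend_alpha hp Nat.prime_two Nat.prime_three (by decide) h2M h3M
    (coprime_four_of_odd hp hp2) hA hS S a h hh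

/-- **EIGEN-LIFT-3** (`q = 3`, `2 ∤ M'`) for every prime `p ≠ 3`: through the level `2M'`. -/
theorem eigenLift_three_of_two {p M' : ℕ} [NeZero M'] [NeZero (2 * M')] (hp : p.Prime)
    (hp3 : p ≠ 3) (h3M : ¬ 3 ∣ M') (h2M : ¬ 2 ∣ M') {A : ValuationSubring Kbar}
    (hA : A.LiesOverPrime 3) (hS : StrongLiftAt p (2 * M') A)
    (S : Finset ℕ) (a : ℕ → ℤ) (h : modularFunctionFieldFullC (kA A) M')
    (hh : IsRedEigen p M' S a h) :
    ∃ S' : Finset ℕ, S ⊆ S' ∧ OccursIn M' p S' a :=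
  eigenLift_descend_alpha hp Nat.prime_three Nat.prime_two (by decide) h3M h2M
    (coprime_three_of_ne hp hp3) hA hS S a h hh

end Fermat.Agent.Ribet.H924

end
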