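import Fermat.Agent.Ribet.H924.DescendAlpha
import Fermat.Agent.Ribet.H343.Q3Closed

/-!
# WALL-q, leaf (Q3) EIGEN-LIFT for ALL primes `p ≠ q` and ALL levels (helper924)

For row S59 (cell LO-Q, Mazur's principle in W-form at `p ∈ {3, 5}`, `q = 2` included) the leaf
EIGEN-LIFT of the (Q3) board is needed without `5 ≤ p` and without `q ≠ 2`.

* `eigenLift_strong_goodLevel` : the strong form of EIGEN-LIFT at every GOOD level
  (`S37.Core.GoodLevel M q`: `5 ≤ q`, or `q = 3 ∧ 2 ∣ M`, or `q = 2 ∧ 3 ∣ M`), for every prime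
  `p ≠ q`.  The proof is the one of `H523.Q3.eigenLiftGood_strong` (helper523) verbatim, with
  `H937.grSurj`, `H579.kumRed`, `H708.kronField` plugged and the good level passed as such.
* `strongLiftAt_goodLevel` : the same in the shape `H924.StrongLiftAt`.
* `eigenLift_all` : **EIGEN-LIFT at ALL levels, for all primes `p ≠ q`**: good levels directly,
  `q = 3` with `M'` odd through `2M'`, `q = 2` with `3 ∤ M'` through `3M'`
  (`H924.eigenLift_descend_alpha`).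
* `eigenLiftAllStatement` : the same as a closed `Prop`.
-/

set_option autoImplicit false
set_option linter.style.haveILetI false
set_option linter.unusedSectionVars false
set_option synthInstance.maxHeartbeats 400000
set_option maxHeartbeats 1600000

noncomputable section

namespace Fermat.Agent.Ribet.H924

open AlgebraicCurve ModularCurve HahnSeries
open Fermat.Agent.S24 Fermat.Agent.A2.H708 Fermat.Agent.A2.H528
open Fermat.Agent.Ribet.Spec Fermat.Agent.Ribet.H944.Wall Fermat.Agent.Ribet.H884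
open Fermat.Agent.Ribet.H158.WallQ
open Fermat.Agent.Ribet.H944.I2
open Fermat.Agent.S37.H400
open Fermat.Agent.Ribet.H523.Q3

/-- **EIGEN-LIFT at good levels, strong form, for every prime `p ≠ q`** (`q = 2` included). -/
theorem eigenLift_strong_goodLevel
    (p q M' : ℕ) [NeZero M'] (hp : p.Prime) (hq : q.Prime) (hqp : q ≠ p)
    (hqM : ¬ q ∣ M') (hgood : Fermat.Agent.S37.Core.GoodLevel M' q)
    (A : ValuationSubring Kbar) (hA : A.LiesOverPrime q)
    (S : Finset ℕ) (a : ℕ → ℤ) (h : modularFunctionFieldFullC (kA A) M')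
    (hh : IsRedEigen p M' S a h) :
    ∃ (z : JZero M') (f : FF M') (r : LaurentSeries (kA A)) (c : kA A)
      (u : modularFunctionFieldFullC (kA A) M'),
      z ≠ 0 ∧ p • z = 0 ∧ IsKummerGen M' p f z ∧ IsRedInf M' A f r ∧ c ≠ 0 ∧ u ≠ 0 ∧
      r = HahnSeries.C c * (h : LaurentSeries (kA A)) * (u : LaurentSeries (kA A)) ^ p ∧
      ∀ ℓ : Nat.Primes, (ℓ : ℕ) ∉ S ∪ (q * M' * p).primeFactors →
        heckeOperatorBar M' ℓ z = a ℓ • z := by
  classical
  obtain ⟨hac, hch⟩ := Fermat.Agent.Ribet.H939.resField q hq A hA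
  haveI := hac
  haveI := hch
  haveI : Fact q.Prime := ⟨hq⟩
  have hchar : ∀ p' : ℕ, p'.Prime → p' ∣ M' → (p' : kA A) ≠ 0 := by
    intro p' hp' hd h0
    have h1 : q ∣ p' := (CharP.cast_eq_zero_iff (kA A) q p').mp h0
    have h2 : q = p' := (Nat.prime_dvd_prime_iff_eq hq hp').mp h1
    exact hqM (h2 ▸ hd)
  haveI hpd : HasPrincipalDivisors (kA A) (modularFunctionFieldFullC (kA A) M') :=
    Fermat.Agent.S37.H868.hpd_fullC (kA A) M' hchar
  have hconst := Fermat.Agent.S18.H144.constOfOrdZero_fullC (kA A) M' hchar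
  have hRI : ReductionInputsModL A M' :=
    Fermat.Agent.S37.Core.rimStatement M' q hq hqM hgood A hA
  obtain ⟨h0, hdiv, hnpp, heig⟩ := hh
  obtain ⟨Eh, hEh⟩ := exists_degZero_of_dvd_ord (K := kA A) hp.ne_zero h0 hdiv
  -- the class `y` of `h`
  have hpy : p • (Pic0.mk Eh : JZeroC (kA A) M') = 0 := by
    have e : p • (Pic0.mk Eh : JZeroC (kA A) M') = Pic0.mk (p • Eh) := rfl
    rw [e]
    show (QuotientAddGroup.mk (p • Eh) : Pic0 (kA A) (modularFunctionFieldFullC (kA A) M')) = 0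
    refine (QuotientAddGroup.eq_zero_iff (p • Eh)).mpr ?_
    rw [AddSubgroup.mem_addSubgroupOf]
    refine ⟨h, h0, fun Q => ?_⟩
    rw [hEh Q]
    simp
  have hy0 : (Pic0.mk Eh : JZeroC (kA A) M') ≠ 0 := by
    intro hy
    obtain ⟨c, u, hc, hu, he⟩ := exists_const_mul_pow_of_mk_eq_zero hconst h0 hEh hy
    apply hnpp
    refine ⟨c, u, hc, hu, ?_⟩
    rw [he]
    show ((algebraMap (kA A) (modularFunctionFieldFullC (kA A) M') c : _) : LaurentSeries (kA A))
      * ((u : LaurentSeries (kA A))) ^ p = _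
    rw [show ((algebraMap (kA A) (modularFunctionFieldFullC (kA A) M') c : _) :
      LaurentSeries (kA A)) = HahnSeries.C c from Fermat.Agent.S18.H602.algebraMap_eq_C c]
  obtain ⟨z, hpz, hzy⟩ := Fermat.Agent.Ribet.H937.grSurj M' hqM hgood A hA p
    (fun hd => hqp ((Nat.prime_dvd_prime_iff_eq hq hp).mp hd)) _ hpy
  have hz0 : z ≠ 0 := by
    rintro rfl
    rw [map_zero] at hzy
    exact hy0 hzy.symm
  obtain ⟨f, hfK⟩ := exists_isKummerGen (N := M') p z hpz
  obtain ⟨r, hr⟩ := (Fermat.Agent.Ribet.H997.redExists q M' hq A hA f hfK.1).1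
  have hr0 : r ≠ 0 := (isRedInf_ne_zero M' A hr).2
  obtain ⟨g, E, hgr, hE, hord⟩ := Fermat.Agent.Ribet.H579.kumRed q M' p hq hqM A hA hRI z f r hfK hr
  have hg0 : g ≠ 0 := fun e => hr0 (by rw [← hgr, e]; rfl)
  obtain ⟨c, u, hc, hu, hgeq⟩ :=
    exists_const_mul_pow hconst hg0 h0 hord hEh (hE.trans hzy)
  have hcst : ∀ d : kA A, ((algebraMap (kA A) (modularFunctionFieldFullC (kA A) M') d : _) :
      LaurentSeries (kA A)) = HahnSeries.C d := fun d =>
    Fermat.Agent.S18.H602.algebraMap_eq_C d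
  have hrser : r = HahnSeries.C c * (h : LaurentSeries (kA A)) *
      (u : LaurentSeries (kA A)) ^ p := by
    rw [← hgr, hgeq]
    show ((algebraMap (kA A) (modularFunctionFieldFullC (kA A) M') c : _) :
      LaurentSeries (kA A)) * (h : LaurentSeries (kA A)) * (u : LaurentSeries (kA A)) ^ p = _
    rw [hcst]
  refine ⟨z, f, r, c, u, hz0, hpz, hfK, hr, hc, hu, hrser, ?_⟩
  -- the eigen-relation, by injectivity of the reduction on `p`-torsion
  intro ℓ hℓS'
  have hℓS : (ℓ : ℕ) ∉ S := fun e => hℓS' (Finset.mem_union_left _ e)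
  have hqMp0 : q * M' * p ≠ 0 :=
    Nat.mul_ne_zero (Nat.mul_ne_zero hq.ne_zero (NeZero.ne M')) hp.ne_zero
  have hℓN : ¬ (ℓ : ℕ) ∣ q * M' * p := fun hd =>
    hℓS' (Finset.mem_union_right _ (Nat.mem_primeFactors.mpr ⟨ℓ.2, hd, hqMp0⟩))
  have hℓM : ¬ (ℓ : ℕ) ∣ M' := fun hd =>
    hℓN (Dvd.dvd.mul_right (Dvd.dvd.mul_left hd q) p)
  have hℓq : (ℓ : ℕ) ≠ q := fun e =>
    hℓN (Dvd.dvd.mul_right (Dvd.dvd.mul_right (e ▸ dvd_refl _) M') p)
  haveI : NeZero (ℓ : ℕ) := ⟨ℓ.2.ne_zero⟩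
  obtain ⟨cℓ, G, hcℓ, hG, hKE⟩ := heig ℓ ℓ.2 hℓS
  obtain ⟨v, hv⟩ := Fermat.Agent.Ribet.H708.kronField q M' hq hqM A hA ℓ ℓ.2 hℓM hℓq u
  have hpw : p • (heckeOperatorBar M' ℓ z - a ℓ • z) = 0 := by
    have e1 : p • (heckeOperatorBar M' ℓ z) = 0 := by
      rw [← map_nsmul, hpz, map_zero]
    have e2 : p • (a ℓ • z) = 0 := by
      rw [smul_comm, hpz, smul_zero]
    rw [nsmul_sub, e1, e2, sub_zero]
  -- a Kummer generator of `w = T_ℓ z - a_ℓ z` and its reduction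
  have hK1 : IsKummerGen M' p (Fermat.Agent.S29.H395.heckeNorm M' ℓ f)
      (heckeOperatorBar M' ℓ z) :=
    Fermat.Agent.Ribet.H398.isKummerGen_heckeNorm M' ℓ p f z hfK
  have hKw : IsKummerGen M' p
      (Fermat.Agent.S29.H395.heckeNorm M' ℓ f * (f ^ (a ℓ))⁻¹)
      (heckeOperatorBar M' ℓ z - a ℓ • z) := by
    rw [sub_eq_add_neg]
    exact isKummerGen_mul M' p hK1 (isKummerGen_inv M' p (isKummerGen_zpow' M' p hfK (a ℓ)))
  have hR1 : IsRedInf M' A (Fermat.Agent.S29.H395.heckeNorm M' ℓ f) (kronNorm ℓ r) :=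
    Fermat.Agent.Ribet.H376.isRedInf_heckeNorm' M' ℓ ℓ.2 hℓM A hr
  have hRw : IsRedInf M' A (Fermat.Agent.S29.H395.heckeNorm M' ℓ f * (f ^ (a ℓ))⁻¹)
      (kronNorm ℓ r * (r ^ (a ℓ))⁻¹) :=
    isRedInf_mul M' A hR1 (isRedInf_inv M' A (isRedInf_zpow M' A hr (a ℓ)))
  obtain ⟨gw, Ew, hgw, hEw, hordw⟩ := Fermat.Agent.Ribet.H579.kumRed q M' p hq hqM A hA hRI _ _ _ hKw hRw
  -- the reduction is a constant times a `p`-th power in `F_k`
  have hh0 : (h : LaurentSeries (kA A)) ≠ 0 := fun e => h0 (Subtype.ext e)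
  have hu0 : (u : LaurentSeries (kA A)) ≠ 0 := fun e => hu (Subtype.ext e)
  have hua0 : u ^ (a ℓ) ≠ 0 := zpow_ne_zero _ hu
  have hcalc : gw = algebraMap (kA A) (modularFunctionFieldFullC (kA A) M')
      (c ^ ((ℓ : ℕ) + 1) * cℓ * (c ^ (a ℓ))⁻¹) * (G * v * (u ^ (a ℓ))⁻¹) ^ p := by
    apply Subtype.ext
    rw [hgw]
    show kronNorm ℓ r * (r ^ (a ℓ))⁻¹ =
      ((algebraMap (kA A) (modularFunctionFieldFullC (kA A) M')
        (c ^ ((ℓ : ℕ) + 1) * cℓ * (c ^ (a ℓ))⁻¹) : _) : LaurentSeries (kA A)) *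
      ((G : LaurentSeries (kA A)) * (v : LaurentSeries (kA A)) *
        ((u : LaurentSeries (kA A)) ^ (a ℓ))⁻¹) ^ p
    rw [hcst, hv, hrser, kronNorm_mul, kronNorm_mul, kronNorm_pow,
      Fermat.Agent.Ribet.H376.kronNorm_C, hKE]
    have hCc : (HahnSeries.C c : LaurentSeries (kA A)) ≠ 0 :=
      (map_ne_zero (HahnSeries.C : kA A →+* LaurentSeries (kA A))).mpr hc
    have e1 : (HahnSeries.C c * (h : LaurentSeries (kA A)) *
        (u : LaurentSeries (kA A)) ^ p) ^ (a ℓ) =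
        HahnSeries.C (c ^ (a ℓ)) * (h : LaurentSeries (kA A)) ^ (a ℓ) *
          ((u : LaurentSeries (kA A)) ^ (a ℓ)) ^ p := by
      rw [mul_zpow, mul_zpow, ← map_zpow₀ (HahnSeries.C : kA A →+* LaurentSeries (kA A)),
        ← zpow_natCast ((u : LaurentSeries (kA A))) p, ← zpow_mul,
        ← zpow_natCast ((u : LaurentSeries (kA A)) ^ (a ℓ)) p, ← zpow_mul, mul_comm (p : ℤ)]
    rw [e1]
    have hha0 : (h : LaurentSeries (kA A)) ^ (a ℓ) ≠ 0 := zpow_ne_zero _ hh0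
    have hua0' : (u : LaurentSeries (kA A)) ^ (a ℓ) ≠ 0 := zpow_ne_zero _ hu0
    have hca0 : (HahnSeries.C (c ^ (a ℓ)) : LaurentSeries (kA A)) ≠ 0 :=
      (map_ne_zero (HahnSeries.C : kA A →+* LaurentSeries (kA A))).mpr (zpow_ne_zero (a ℓ) hc)
    have hcl0 : (HahnSeries.C (c ^ ((ℓ : ℕ) + 1)) : LaurentSeries (kA A)) ≠ 0 :=
      (map_ne_zero (HahnSeries.C : kA A →+* LaurentSeries (kA A))).mpr (pow_ne_zero _ hc)
    have huap0 : ((u : LaurentSeries (kA A)) ^ (a ℓ)) ^ p ≠ 0 := pow_ne_zero _ hua0'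
    rw [map_mul, map_mul, map_inv₀, mul_pow, mul_pow, inv_pow]
    generalize (HahnSeries.C (c ^ ((ℓ : ℕ) + 1)) : LaurentSeries (kA A)) = X1 at hcl0 ⊢
    generalize (HahnSeries.C (c ^ (a ℓ)) : LaurentSeries (kA A)) = X2 at hca0 ⊢
    generalize (HahnSeries.C cℓ : LaurentSeries (kA A)) = X3
    generalize ((u : LaurentSeries (kA A)) ^ (a ℓ)) ^ p = X4 at huap0 ⊢
    generalize (h : LaurentSeries (kA A)) ^ (a ℓ) = X5 at hha0 ⊢
    generalize (G : LaurentSeries (kA A)) ^ p = X6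
    generalize (kronNorm (ℓ : ℕ) (u : LaurentSeries (kA A))) ^ p = X7
    field_simp
  have hgw_cst : c ^ ((ℓ : ℕ) + 1) * cℓ * (c ^ (a ℓ))⁻¹ ≠ 0 :=
    mul_ne_zero (mul_ne_zero (pow_ne_zero _ hc) hcℓ) (inv_ne_zero (zpow_ne_zero _ hc))
  have hv0 : v ≠ 0 := by
    intro e
    have h1 : kronNorm ℓ (u : LaurentSeries (kA A)) = 0 := by rw [← hv, e]; rfl
    exact Fermat.Agent.Ribet.H376.kronNorm_ne_zero_of_field ℓ.2 hu0 h1
  have hzero : (Pic0.mk Ew : JZeroC (kA A) M') = 0 :=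
    mk_eq_zero_of_const_mul_pow (K := kA A) hp.ne_zero
      (mul_ne_zero (mul_ne_zero hG hv0) (inv_ne_zero hua0)) hcalc hordw hgw_cst
  have hred0 : reductionModL A M' (heckeOperatorBar M' ℓ z - a ℓ • z) = 0 := by
    rw [← hEw, hzero]
  have hqp' : ¬ q ∣ p := fun hd => hqp ((Nat.prime_dvd_prime_iff_eq hq hp).mp hd)
  have hw := Fermat.Agent.S18.result M' hqM A hA hRI p hqp' _ hpw hred0
  exact sub_eq_zero.mp hw

/-- The strong lift at a good level, in the shape `StrongLiftAt`. -/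
theorem strongLiftAt_goodLevel {p q N : ℕ} [NeZero N] (hp : p.Prime) (hq : q.Prime)
    (hqp : q ≠ p) (hqN : ¬ q ∣ N) (hgood : Fermat.Agent.S37.Core.GoodLevel N q)
    {A : ValuationSubring Kbar} (hA : A.LiesOverPrime q) : StrongLiftAt p N A := by
  intro S a h hh
  obtain ⟨z, f, r, c, u, -, hpz, hK, hred, hc, hu, hr, heig⟩ :=
    eigenLift_strong_goodLevel p q N hp hq hqp hqN hgood A hA S a h hh
  refine ⟨S ∪ (q * N * p).primeFactors, z, f, c, u, Finset.subset_union_left, hpz, heig, hK,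
    hc, hu, ?_⟩
  rw [← hr]
  exact hred

/-- EIGEN-LIFT at a good level, for every prime `p ≠ q`. -/
theorem eigenLift_goodLevel {p q M' : ℕ} [NeZero M'] (hp : p.Prime) (hq : q.Prime)
    (hqp : q ≠ p) (hqM : ¬ q ∣ M') (hgood : Fermat.Agent.S37.Core.GoodLevel M' q)
    {A : ValuationSubring Kbar} (hA : A.LiesOverPrime q)
    (S : Finset ℕ) (a : ℕ → ℤ) (h : modularFunctionFieldFullC (kA A) M')
    (hh : IsRedEigen p M' S a h) :
    ∃ S' : Finset ℕ, S ⊆ S' ∧ OccursIn M' p S' a := by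
  obtain ⟨z, f, r, c, u, hz0, hpz, -, -, -, -, -, heig⟩ :=
    eigenLift_strong_goodLevel p q M' hp hq hqp hqM hgood A hA S a h hh
  exact ⟨S ∪ (q * M' * p).primeFactors, Finset.subset_union_left, z, hz0, hpz, heig⟩

/-- **EIGEN-LIFT at ALL levels, for all primes `p ≠ q`** (no `5 ≤ p`, no `q ≠ 2`; `p ∣ M'` is
allowed). -/
theorem eigenLift_all {p q M' : ℕ} [NeZero M'] (hp : p.Prime) (hq : q.Prime) (hqp : q ≠ p)
    (hqM : ¬ q ∣ M') {A : ValuationSubring Kbar} (hA : A.LiesOverPrime q)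
    (S : Finset ℕ) (a : ℕ → ℤ) (h : modularFunctionFieldFullC (kA A) M')
    (hh : IsRedEigen p M' S a h) :
    ∃ S' : Finset ℕ, S ⊆ S' ∧ OccursIn M' p S' a := by
  rcases Fermat.Agent.S37.Core.prime_cases hq with h2 | h3 | h5
  · -- `q = 2`
    subst h2
    by_cases h3M : 3 ∣ M'
    · exact eigenLift_goodLevel hp hq hqp hqM (Or.inr (Or.inr ⟨rfl, h3M⟩)) hA S a h hh
    · haveI : NeZero (3 * M') := ⟨Nat.mul_ne_zero (by norm_num) (NeZero.ne M')⟩
      have h2M3 : ¬ 2 ∣ 3 * M' := by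
        intro hd
        rcases (Nat.Prime.dvd_mul Nat.prime_two).mp hd with hd | hd
        · exact absurd hd (by decide)
        · exact hqM hd
      exact eigenLift_two_of_three hp (fun e => hqp e.symm) hqM h3M hA
        (strongLiftAt_goodLevel hp hq hqp h2M3
          (Or.inr (Or.inr ⟨rfl, dvd_mul_right 3 M'⟩)) hA) S a h hh
  · -- `q = 3`
    subst h3
    by_cases h2M : 2 ∣ M'
    · exact eigenLift_goodLevel hp hq hqp hqM (Or.inr (Or.inl ⟨rfl, h2M⟩)) hA S a h hh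
    · haveI : NeZero (2 * M') := ⟨Nat.mul_ne_zero (by norm_num) (NeZero.ne M')⟩
      have h3M2 : ¬ 3 ∣ 2 * M' := by
        intro hd
        rcases (Nat.Prime.dvd_mul Nat.prime_three).mp hd with hd | hd
        · exact absurd hd (by decide)
        · exact hqM hd
      exact eigenLift_three_of_two hp (fun e => hqp e.symm) hqM h2M hA
        (strongLiftAt_goodLevel hp hq hqp h3M2
          (Or.inr (Or.inl ⟨rfl, dvd_mul_right 2 M'⟩)) hA) S a h hh
  · exact eigenLift_goodLevel hp hq hqp hqM (Or.inl h5) hA S a h hh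

/-- **EIGEN-LIFT for all primes `p ≠ q` and all levels**, as a closed statement (the shape of
`H523.Q3.EigenLiftStatement` without the binders `5 ≤ p`, `q ≠ 2`). -/
def EigenLiftAllStatement : Prop :=
  ∀ (p q M' : ℕ) [NeZero M'], p.Prime → q.Prime → q ≠ p → ¬ q ∣ M' →
    ∀ A : ValuationSubring Kbar, A.LiesOverPrime q →
    ∀ (S : Finset ℕ) (a : ℕ → ℤ) (h : modularFunctionFieldFullC (kA A) M'),
      IsRedEigen p M' S a h → ∃ S' : Finset ℕ, S ⊆ S' ∧ OccursIn M' p S' a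

theorem eigenLiftAllStatement : EigenLiftAllStatement :=
  fun _ _ _ _ hp hq hqp hqM _ hA S a h hh => eigenLift_all hp hq hqp hqM hA S a h hh

end Fermat.Agent.Ribet.H924

end
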