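import Fermat.Agent.Ribet.H924.NormRedRel
import Fermat.Agent.Ribet.H997.RedField
import Fermat.Agent.S37.Red.ModG
import Fermat.Agent.S37.H818.ModularNorm

/-!
# Row 37, WALL-q, leaf (Q3) EIGEN-LIFT-3 (helper924): the Gauss valuation rings in the tower
# `F_M ⊆ F_{Mℓ}` at a residue characteristic `q ∤ Mℓ`

`V_M = modO` (S37 `Red/ModG`), `ρ_M = modρ : V_M ↠ k(X₀(M))`.  For a prime `ℓ ∤ M` and the
inclusion `α : F_M → F_{Mℓ}`:

* `alpha_mem_modO`, `modρ_alpha` : `α (V_M) ⊆ V_{Mℓ}` and `ρ_{Mℓ} ∘ α = incl ∘ ρ_M`;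
* `valExtends_alpha`            : `V_{Mℓ} ∩ F_M = V_M`;
* `finrank_alpha_eq`            : `[F_{Mℓ} : F_M] = ℓ + 1 = [k(X₀(Mℓ)) : k(X₀(M))]`;
* `norm_red_alpha`              : for `y ∈ V_{Mℓ}`: `N_α y ∈ V_M` and
                                  `ρ_M (N_α y) = N_{k(X₀(Mℓ))/k(X₀(M))} (ρ_{Mℓ} y)`.
-/

set_option autoImplicit false
set_option linter.style.haveILetI false
set_option linter.unusedSectionVars false
set_option synthInstance.maxHeartbeats 400000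
set_option maxHeartbeats 1600000

noncomputable section

namespace Fermat.Agent.Ribet.H924

open AlgebraicCurve ModularCurve HahnSeries IsLocalRing
open Fermat.Agent.S37.Red (Qb FN FNk ModVG modO modρ modFrac)
open Fermat.Agent.S37.H217 (ValExtends)

section Tower

variable (M ℓ : ℕ) [NeZero M] [NeZero ℓ] (A : ValuationSubring Qb)

/-- the residue field -/
abbrev kk : Type := ResidueField A

/-- the inclusion `k(X₀(M)) → k(X₀(Mℓ))` -/
def inclK : FNk A M →ₐ[kk A] FNk A (M * ℓ) :=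
  IntermediateField.inclusion (full_degeneracyC_le (kk A) (dvd_mul_right M ℓ))

@[simp] theorem coe_inclK (x : FNk A M) :
    ((inclK M ℓ A x : FNk A (M * ℓ)) : LaurentSeries (kk A)) = (x : LaurentSeries (kk A)) :=
  IntermediateField.coe_inclusion _ x

/-- the inclusion `F_M → F_{Mℓ}` -/
abbrev alphaQ : FN M →ₐ[Qb] FN (M * ℓ) := heckeAlphaBar Qb M ℓ

variable {M ℓ A}

/-- integral series of level `M` are integral series of level `Mℓ`, with the same reduction -/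
theorem alpha_isIntQ {a : FN M}
    (ha : Fermat.Agent.S37.H940.IsIntQ A (residue A) (modularFunctionFieldBar M)
      (modularFunctionFieldFullC (kk A) M) a) :
    Fermat.Agent.S37.H940.IsIntQ A (residue A) (modularFunctionFieldBar (M * ℓ))
      (modularFunctionFieldFullC (kk A) (M * ℓ)) (alphaQ M ℓ a) := by
  obtain ⟨y, hy, hyk⟩ := ha
  refine ⟨y, ?_, full_degeneracyC_le (kk A) (dvd_mul_right M ℓ) hyk⟩
  rw [hy]
  exact (coe_heckeAlphaBar M ℓ a).symm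

/-- `α` on integral series -/
def alphaO (a : (modFrac M A).O) : (modFrac (M * ℓ) A).O :=
  ⟨alphaQ M ℓ (a : FN M), alpha_isIntQ a.2⟩

@[simp] theorem coe_alphaO (a : (modFrac M A).O) :
    ((alphaO (ℓ := ℓ) a : (modFrac (M * ℓ) A).O) : FN (M * ℓ)) = alphaQ M ℓ (a : FN M) := rfl

theorem ρ₀_alphaO (a : (modFrac M A).O) :
    (modFrac (M * ℓ) A).ρ₀ (alphaO (ℓ := ℓ) a) = inclK M ℓ A ((modFrac M A).ρ₀ a) := by
  obtain ⟨y, hy, hyk⟩ := a.2
  apply Subtype.ext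
  rw [coe_inclK]
  have h1 := Fermat.Agent.S37.H940.coe_redQ A (residue A) (modularFunctionFieldBar M)
    (modularFunctionFieldFullC (kk A) M) a (y := y) hy
  have h2 := Fermat.Agent.S37.H940.coe_redQ A (residue A) (modularFunctionFieldBar (M * ℓ))
    (modularFunctionFieldFullC (kk A) (M * ℓ)) (alphaO (ℓ := ℓ) a) (y := y)
    (by rw [hy]; exact (coe_heckeAlphaBar M ℓ (a : FN M)).symm)
  exact h2.trans h1.symm

variable (hVG₀ : ModVG M A) (hVG₁ : ModVG (M * ℓ) A)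

include hVG₀ hVG₁ in
/-- `α (V_M) ⊆ V_{Mℓ}` and `ρ ∘ α = incl ∘ ρ`. -/
theorem modρ_alpha (g : modO hVG₀) :
    ∃ hg : alphaQ M ℓ (g : FN M) ∈ modO hVG₁,
      modρ hVG₁ ⟨_, hg⟩ = inclK M ℓ A (modρ hVG₀ g) := by
  obtain ⟨a, b, hb, hab⟩ := (g.2 : (modFrac M A).IsFrac g)
  have hb' : (modFrac (M * ℓ) A).ρ₀ (alphaO (ℓ := ℓ) b) ≠ 0 := by
    rw [ρ₀_alphaO]
    intro h0
    exact hb ((map_eq_zero_iff _ (inclK M ℓ A).injective).mp h0)
  have hab' : alphaQ M ℓ (g : FN M) * ((alphaO (ℓ := ℓ) b : (modFrac (M * ℓ) A).O) : FN (M * ℓ))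
      = ((alphaO (ℓ := ℓ) a : (modFrac (M * ℓ) A).O) : FN (M * ℓ)) := by
    rw [coe_alphaO, coe_alphaO, ← map_mul, hab]
  have hmem : alphaQ M ℓ (g : FN M) ∈ modO hVG₁ := ⟨alphaO a, alphaO b, hb', hab'⟩
  refine ⟨hmem, ?_⟩
  have e1 : modρ hVG₁ ⟨_, hmem⟩
      = (modFrac (M * ℓ) A).ρ₀ (alphaO (ℓ := ℓ) a) / (modFrac (M * ℓ) A).ρ₀ (alphaO (ℓ := ℓ) b) :=
    (modFrac (M * ℓ) A).ρ_apply ⟨_, hmem⟩ hb' hab'
  have e2 : modρ hVG₀ g = (modFrac M A).ρ₀ a / (modFrac M A).ρ₀ b :=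
    (modFrac M A).ρ_apply g hb hab
  rw [e1, e2, ρ₀_alphaO, ρ₀_alphaO, map_div₀]

/-- the kernel of `ρ` is the maximal ideal -/
theorem modρ_eq_zero_iff {N : ℕ} [NeZero N] (hVG : ModVG N A) (z : modO hVG) :
    modρ hVG z = 0 ↔ (z : FN N) ∈ (modO hVG).nonunits := by
  have hmax := IsLocalRing.eq_maximalIdeal
    (RingHom.ker_isMaximal_of_surjective (modρ hVG) (Fermat.Agent.S37.Red.modρ_surjective hVG))
  rw [ValuationSubring.coe_mem_nonunits_iff, ← hmax, RingHom.mem_ker]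

include hVG₀ hVG₁ in
/-- `V_{Mℓ} ∩ F_M = V_M`. -/
theorem alpha_mem_modO_iff (g : FN M) : alphaQ M ℓ g ∈ modO hVG₁ ↔ g ∈ modO hVG₀ := by
  constructor
  · intro hg
    by_contra hng
    have hg0 : g ≠ 0 := fun h => hng (h ▸ (modO hVG₀).zero_mem)
    have hinv : g⁻¹ ∈ modO hVG₀ := ((modO hVG₀).mem_or_inv_mem g).resolve_left hng
    have hnon : g⁻¹ ∈ (modO hVG₀).nonunits :=
      (modO hVG₀).inv_mem_nonunits_iff.mpr (Or.inr hng)
    have h0 : modρ hVG₀ ⟨g⁻¹, hinv⟩ = 0 := (modρ_eq_zero_iff hVG₀ ⟨g⁻¹, hinv⟩).mpr hnon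
    obtain ⟨hmem, hρ⟩ := modρ_alpha hVG₀ hVG₁ ⟨g⁻¹, hinv⟩
    rw [h0, map_zero] at hρ
    have h1 : modρ hVG₁ (⟨alphaQ M ℓ g, hg⟩ * ⟨alphaQ M ℓ g⁻¹, hmem⟩) = 0 := by
      rw [map_mul, hρ, mul_zero]
    have h2 : (⟨alphaQ M ℓ g, hg⟩ * ⟨alphaQ M ℓ g⁻¹, hmem⟩ : modO hVG₁) = 1 := by
      apply Subtype.ext
      show alphaQ M ℓ g * alphaQ M ℓ g⁻¹ = 1
      rw [← map_mul, mul_inv_cancel₀ hg0, map_one]
    rw [h2, map_one] at h1
    exact one_ne_zero h1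
  · intro hg
    exact (modρ_alpha hVG₀ hVG₁ ⟨g, hg⟩).1

end Tower

end Fermat.Agent.Ribet.H924
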