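import Fermat.Agent.Ribet.H924.GaussTower
import Fermat.Agent.S28.H988.Degree
import Fermat.Agent.S29.H395.KummerCorr
import Fermat.Agent.S29.H801.M1Modular

/-!
# Row 37, WALL-q, leaf (Q3) EIGEN-LIFT-3 (helper924): NORM-RED

Norms along `α : F_M → F_{Mℓ}` commute with reduction at a prime `q ∤ Mℓ`:

* `norm_red_alpha`  : for `y` in the Gauss valuation ring `V_{Mℓ}`: `N_α y ∈ V_M` and
                      `ρ_M (N_α y) = N_{k(X₀(Mℓ))/k(X₀(M))} (ρ_{Mℓ} y)`;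
* `isRedSer_of_modO`: `ρ v` is a reduction (`IsRedSer`) of `v ∈ V`, `ρ v ≠ 0`;
* `normRed_alpha`   : if `r` is a reduction of `f ∈ F_{Mℓ}` then `r ∈ k(X₀(Mℓ))` and
                      `N (r)` is a reduction of `N_α f`;
* `normRed_kummer`, `normRed_kummer_to` : the consumer form for Kummer functions
                      (`r = c · h₀ · u ^ p` with `h₀` of level `M`).
-/

set_option autoImplicit false
set_option linter.style.haveILetI false
set_option linter.unusedSectionVars false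
set_option synthInstance.maxHeartbeats 400000
set_option maxHeartbeats 1600000

noncomputable section

namespace Fermat.Agent.Ribet.H924

open AlgebraicCurve ModularCurve HahnSeries IsLocalRing
open Fermat.Agent.A2.H708
open Fermat.Agent.S37.Red (Qb FN FNk ModVG modO modρ modFrac)
open Fermat.Agent.S37.H217 (ValExtends)
open Fermat.Agent.Ribet.H997 (IsRedSer)
open Fermat.Agent.S29.H395 (normAlong)

/-- the value-group hypothesis at every level prime to the residue characteristic -/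
theorem modVG_of_prime {N q : ℕ} [NeZero N] (hq : q.Prime) (hqN : ¬ q ∣ N)
    {A : ValuationSubring Qb} (hA : A.LiesOverPrime q) : ModVG N A :=
  Fermat.Agent.S37.H568.valueGroupHyp_modular (N := N) (A := A)
    (Fermat.Agent.S37.H98.coreData_residueField N q hq hqN A hA)

/-- primes dividing a level prime to `q` are invertible in the residue field -/
theorem natCast_ne_zero_kk {N q : ℕ} (hq : q.Prime) (hqN : ¬ q ∣ N)
    {A : ValuationSubring Qb} (hA : A.LiesOverPrime q) (r : ℕ) (hr : r.Prime) (hrN : r ∣ N) :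
    ((r : ℕ) : kk A) ≠ 0 := by
  haveI : CharP (kk A) q := Fermat.Agent.S37.H98.charP_residueField A q hq hA
  intro h0
  have hqr : q ∣ r := (CharP.cast_eq_zero_iff (kk A) q r).mp h0
  have : q = r := (Nat.prime_dvd_prime_iff_eq hq hr).mp hqr
  exact hqN (this ▸ hrN)

section Tower

variable {M ℓ : ℕ} [NeZero M] [NeZero ℓ] {A : ValuationSubring Qb}

theorem finrank_alphaQ (hℓ : ℓ.Prime) (hℓM : ¬ ℓ ∣ M) :
    (letI := algebraAlong (alphaQ M ℓ); Module.finrank (FN M) (FN (M * ℓ))) = ℓ + 1 :=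
  Fermat.Agent.S37.H818.finrankAlong_heckeAlphaBar (L := Qb) M ℓ hℓ hℓM

theorem finrank_inclK (hℓ : ℓ.Prime) (hℓM : ¬ ℓ ∣ M)
    (hchar : ∀ r : ℕ, r.Prime → r ∣ M * ℓ → ((r : ℕ) : kk A) ≠ 0) :
    (letI := algebraAlong (inclK M ℓ A); Module.finrank (FNk A M) (FNk A (M * ℓ))) = ℓ + 1 := by
  have h := Fermat.Agent.S28.H988.relfinrank_full_mul_prime (kk A) M ℓ (NeZero.ne M) hℓ hchar
  rw [if_neg hℓM] at h
  rw [← h]
  exact Fermat.Agent.S37.H818.finrankAlong_inclusion _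

/-- **Norms commute with reduction** along `α : F_M → F_{Mℓ}`. -/
theorem norm_red_alpha (hℓ : ℓ.Prime) (hℓM : ¬ ℓ ∣ M)
    (hchar : ∀ r : ℕ, r.Prime → r ∣ M * ℓ → ((r : ℕ) : kk A) ≠ 0)
    (hVG₀ : ModVG M A) (hVG₁ : ModVG (M * ℓ) A) (y : modO hVG₁) :
    ∃ hN : normAlong (alphaQ M ℓ) (y : FN (M * ℓ)) ∈ modO hVG₀,
      modρ hVG₀ ⟨_, hN⟩ = normAlong (inclK M ℓ A) (modρ hVG₁ y) := by
  letI alg₀ : Algebra (FN M) (FN (M * ℓ)) := algebraAlong (alphaQ M ℓ)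
  letI alg₁ : Algebra (FNk A M) (FNk A (M * ℓ)) := algebraAlong (inclK M ℓ A)
  have hfr₀ : Module.finrank (FN M) (FN (M * ℓ)) = ℓ + 1 := finrank_alphaQ hℓ hℓM
  have hfr₁ : Module.finrank (FNk A M) (FNk A (M * ℓ)) = ℓ + 1 := finrank_inclK hℓ hℓM hchar
  haveI : FiniteDimensional (FN M) (FN (M * ℓ)) :=
    Module.finite_of_finrank_pos (by rw [hfr₀]; omega)
  haveI : FiniteDimensional (FNk A M) (FNk A (M * ℓ)) :=
    Module.finite_of_finrank_pos (by rw [hfr₁]; omega)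
  have hext : ValExtends (modO hVG₀) (modO hVG₁) := fun a => alpha_mem_modO_iff hVG₀ hVG₁ a
  exact norm_red_rel hext (modρ hVG₀) (modρ hVG₁) (Fermat.Agent.S37.Red.modρ_surjective hVG₁)
    (fun a => (modρ_alpha hVG₀ hVG₁ a).2) (hfr₀.trans hfr₁.symm) y

end Tower

/-! ## The bridge to `IsRedSer` -/

section Bridge

variable {N : ℕ} [NeZero N] {A : ValuationSubring Qb}

/-- `ρ v` is a reduction of `v` (for `v` in the Gauss valuation ring, `ρ v ≠ 0`). -/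
theorem isRedSer_of_modO (hVG : ModVG N A) (v : modO hVG) (hv : modρ hVG v ≠ 0) :
    IsRedSer A (((v : FN N)) : LaurentSeries Qb)
      ((modρ hVG v : FNk A N) : LaurentSeries (kk A)) := by
  obtain ⟨a, b, hb, hab⟩ := (v.2 : (modFrac N A).IsFrac v)
  have e : modρ hVG v = (modFrac N A).ρ₀ a / (modFrac N A).ρ₀ b :=
    (modFrac N A).ρ_apply v hb hab
  have ha : (modFrac N A).ρ₀ a ≠ 0 := by
    intro h0
    apply hv
    rw [e, h0, zero_div]
  obtain ⟨Ya, hYa, hYak⟩ := a.2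
  obtain ⟨Yb, hYb, hYbk⟩ := b.2
  have ra : (((modFrac N A).ρ₀ a : FNk A N) : LaurentSeries (kk A)) = red A Ya :=
    Fermat.Agent.S37.H940.coe_redQ A (residue A) (modularFunctionFieldBar N)
      (modularFunctionFieldFullC (kk A) N) a (y := Ya) hYa
  have rb : (((modFrac N A).ρ₀ b : FNk A N) : LaurentSeries (kk A)) = red A Yb :=
    Fermat.Agent.S37.H940.coe_redQ A (residue A) (modularFunctionFieldBar N)
      (modularFunctionFieldFullC (kk A) N) b (y := Yb) hYb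
  refine ⟨1, Ya, Yb, one_ne_zero, ?_, ?_, ?_, ?_⟩
  · rw [← ra]
    intro h0
    exact ha (Subtype.ext h0)
  · rw [← rb]
    intro h0
    exact hb (Subtype.ext h0)
  · rw [cst_one, one_mul]
    show ((v : FN N) : LaurentSeries Qb) * coeffMap A.subtype Yb = coeffMap A.subtype Ya
    rw [hYa, hYb]
    exact congrArg Subtype.val hab
  · rw [e, ← ra, ← rb]
    have h1 := div_mul_cancel₀ ((modFrac N A).ρ₀ a) hb
    exact congrArg Subtype.val h1

/-- scaling the function by a nonzero constant does not change the reductions -/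
theorem isRedSer_cst_mul {x : LaurentSeries Qb} {r : LaurentSeries (kk A)}
    (h : IsRedSer A x r) {c : Qb} (hc : c ≠ 0) : IsRedSer A (cst c * x) r := by
  obtain ⟨c₀, U₁, U₂, hc₀, h₁, h₂, he, hr⟩ := h
  refine ⟨c * c₀, U₁, U₂, mul_ne_zero hc hc₀, h₁, h₂, ?_, hr⟩
  rw [mul_assoc, he, cst_mul, mul_assoc]

/-- a reduction may be scaled by a nonzero constant of `k` -/
theorem isRedSer_C_mul {x : LaurentSeries Qb} {r : LaurentSeries (kk A)}
    (h : IsRedSer A x r) {u : kk A} (hu : u ≠ 0) : IsRedSer A x (HahnSeries.C u * r) := by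
  obtain ⟨c₀, U₁, U₂, hc₀, h₁, h₂, he, hr⟩ := h
  obtain ⟨a, rfl⟩ := IsLocalRing.residue_surjective (R := A) u
  have ha0 : (a : Qb) ≠ 0 := by
    intro h0
    apply hu
    have : a = 0 := Subtype.ext h0
    rw [this, map_zero]
  have hred : red A (cstA A a * U₁) = HahnSeries.C (residue A a) * red A U₁ := by
    rw [map_mul, red_cstA]
    rfl
  refine ⟨c₀ * (a : Qb)⁻¹, cstA A a * U₁, U₂, mul_ne_zero hc₀ (inv_ne_zero ha0), ?_, h₂, ?_, ?_⟩
  · rw [hred]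
    refine mul_ne_zero ?_ h₁
    intro h0
    apply hu
    have := congrArg (fun z : LaurentSeries (kk A) => z.coeff 0) h0
    simpa using this
  · rw [he, map_mul, incl_cstA, cst_mul, mul_assoc, ← mul_assoc (cst (a : Qb)⁻¹),
      cst_inv_mul_cst ha0, one_mul]
  · rw [hred, mul_assoc, hr]

/-- every nonzero function is a constant times a unit of the Gauss valuation ring -/
theorem exists_cst_mul_unit (hVG : ModVG N A) {f : FN N} (hf : f ≠ 0) :
    ∃ (c : Qb) (u : modO hVG), c ≠ 0 ∧ modρ hVG u ≠ 0 ∧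
      f = algebraMap Qb (FN N) c * (u : FN N) := by
  obtain ⟨c, hc, y₁, y₂, h₁, h₂, hfy⟩ := hVG f hf
  let z₁ : (modFrac N A).O := y₁
  let z₂ : (modFrac N A).O := y₂
  have hz₁ : (modFrac N A).ρ₀ z₁ ≠ 0 := h₁
  have hz₂ : (modFrac N A).ρ₀ z₂ ≠ 0 := h₂
  have hz₂0 : (z₂ : FN N) ≠ 0 := (modFrac N A).coe_ne_zero hz₂
  have hmem : (z₁ : FN N) * (z₂ : FN N)⁻¹ ∈ modO hVG :=
    ⟨z₁, z₂, hz₂, by rw [mul_assoc, inv_mul_cancel₀ hz₂0, mul_one]⟩
  have hρ : modρ hVG ⟨_, hmem⟩ = (modFrac N A).ρ₀ z₁ / (modFrac N A).ρ₀ z₂ :=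
    (modFrac N A).ρ_apply ⟨_, hmem⟩ hz₂ (by rw [mul_assoc, inv_mul_cancel₀ hz₂0, mul_one])
  refine ⟨c, ⟨_, hmem⟩, hc, ?_, ?_⟩
  · rw [hρ]
    exact div_ne_zero hz₁ hz₂
  · have hfz : f * (z₂ : FN N) = algebraMap Qb (FN N) c * (z₁ : FN N) := hfy
    show f = algebraMap Qb (FN N) c * ((z₁ : FN N) * (z₂ : FN N)⁻¹)
    rw [← mul_assoc, ← hfz, mul_assoc, mul_inv_cancel₀ hz₂0, mul_one]

end Bridge

/-! ## NORM-RED -/

section NormRedSec

variable {q M ℓ : ℕ} [NeZero M] [NeZero ℓ] {A : ValuationSubring Qb}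

theorem coe_algebraMap_fullC (k : Type) [Field k] (N : ℕ) (c : k) :
    ((algebraMap k (modularFunctionFieldFullC k N) c : modularFunctionFieldFullC k N) :
      LaurentSeries k) = HahnSeries.C c := by
  show algebraMap k (LaurentSeries k) c = HahnSeries.C c
  rw [algebraMap_laurentSeries_eq_single]
  rfl

/-- the norm along `α` of a constant -/
theorem normAlong_alphaQ_const (hℓ : ℓ.Prime) (hℓM : ¬ ℓ ∣ M) (c : Qb) :
    normAlong (alphaQ M ℓ) (algebraMap Qb (FN (M * ℓ)) c) = algebraMap Qb (FN M) (c ^ (ℓ + 1)) := by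
  letI alg₀ : Algebra (FN M) (FN (M * ℓ)) := algebraAlong (alphaQ M ℓ)
  have hfr₀ : Module.finrank (FN M) (FN (M * ℓ)) = ℓ + 1 := finrank_alphaQ hℓ hℓM
  have h1 : algebraMap Qb (FN (M * ℓ)) c
      = algebraMap (FN M) (FN (M * ℓ)) (algebraMap Qb (FN M) c) :=
    ((alphaQ M ℓ).commutes c).symm
  show Algebra.norm (FN M) (algebraMap Qb (FN (M * ℓ)) c) = _
  rw [h1, Algebra.norm_algebraMap, hfr₀, map_pow]

/-- the norm along the inclusion of `k(X₀(M))` of a constant -/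
theorem normAlong_inclK_const (hℓ : ℓ.Prime) (hℓM : ¬ ℓ ∣ M)
    (hchar : ∀ r : ℕ, r.Prime → r ∣ M * ℓ → ((r : ℕ) : kk A) ≠ 0) (c : kk A) :
    normAlong (inclK M ℓ A) (algebraMap (kk A) (FNk A (M * ℓ)) c)
      = algebraMap (kk A) (FNk A M) (c ^ (ℓ + 1)) := by
  letI alg₁ : Algebra (FNk A M) (FNk A (M * ℓ)) := algebraAlong (inclK M ℓ A)
  have hfr₁ : Module.finrank (FNk A M) (FNk A (M * ℓ)) = ℓ + 1 := finrank_inclK hℓ hℓM hchar
  have h1 : algebraMap (kk A) (FNk A (M * ℓ)) c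
      = algebraMap (FNk A M) (FNk A (M * ℓ)) (algebraMap (kk A) (FNk A M) c) :=
    ((inclK M ℓ A).commutes c).symm
  show Algebra.norm (FNk A M) (algebraMap (kk A) (FNk A (M * ℓ)) c) = _
  rw [h1, Algebra.norm_algebraMap, hfr₁, map_pow]

/-- the norm along the inclusion of `k(X₀(M))` of an element of `k(X₀(M))` -/
theorem normAlong_inclK_inclK (hℓ : ℓ.Prime) (hℓM : ¬ ℓ ∣ M)
    (hchar : ∀ r : ℕ, r.Prime → r ∣ M * ℓ → ((r : ℕ) : kk A) ≠ 0) (x : FNk A M) :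
    normAlong (inclK M ℓ A) (inclK M ℓ A x) = x ^ (ℓ + 1) := by
  letI alg₁ : Algebra (FNk A M) (FNk A (M * ℓ)) := algebraAlong (inclK M ℓ A)
  have hfr₁ : Module.finrank (FNk A M) (FNk A (M * ℓ)) = ℓ + 1 := finrank_inclK hℓ hℓM hchar
  show Algebra.norm (FNk A M) (algebraMap (FNk A M) (FNk A (M * ℓ)) x) = _
  rw [Algebra.norm_algebraMap, hfr₁]

theorem finiteAlong_inclK (hℓ : ℓ.Prime) (hℓM : ¬ ℓ ∣ M)
    (hchar : ∀ r : ℕ, r.Prime → r ∣ M * ℓ → ((r : ℕ) : kk A) ≠ 0) :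
    FiniteAlong (kk A) (inclK M ℓ A) := by
  unfold FiniteAlong
  letI alg₁ : Algebra (FNk A M) (FNk A (M * ℓ)) := algebraAlong (inclK M ℓ A)
  have hfr₁ : Module.finrank (FNk A M) (FNk A (M * ℓ)) = ℓ + 1 := finrank_inclK hℓ hℓM hchar
  exact Module.finite_of_finrank_pos (by rw [hfr₁]; omega)

/-- **NORM-RED**, series form: if `r` is a reduction of `f ∈ F_{Mℓ}` (`q ∤ Mℓ`), then
`r ∈ k(X₀(Mℓ))` and `N_{k(X₀(Mℓ))/k(X₀(M))} r` is a reduction of `N_α f`. -/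
theorem normRed_alpha (hq : q.Prime) (hℓ : ℓ.Prime) (hqM : ¬ q ∣ M) (hqℓ : q ≠ ℓ)
    (hℓM : ¬ ℓ ∣ M) (hA : A.LiesOverPrime q) (f : FN (M * ℓ)) (r : LaurentSeries (kk A))
    (hr : IsRedSer A (f : LaurentSeries Qb) r) :
    ∃ hr' : r ∈ modularFunctionFieldFullC (kk A) (M * ℓ),
      IsRedSer A ((normAlong (alphaQ M ℓ) f : FN M) : LaurentSeries Qb)
        ((normAlong (inclK M ℓ A) ⟨r, hr'⟩ : FNk A M) : LaurentSeries (kk A)) := by
  have hqMℓ : ¬ q ∣ M * ℓ := by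
    intro h
    rcases (Nat.Prime.dvd_mul hq).mp h with h | h
    · exact hqM h
    · exact hqℓ ((Nat.prime_dvd_prime_iff_eq hq hℓ).mp h)
  have hVG₀ : ModVG M A := modVG_of_prime hq hqM hA
  have hVG₁ : ModVG (M * ℓ) A := modVG_of_prime hq hqMℓ hA
  have hchar := natCast_ne_zero_kk hq hqMℓ hA
  have hf0 : f ≠ 0 := fun h0 => hr.ne_zero (by rw [h0]; rfl)
  obtain ⟨c, u, hc, hu, hfu⟩ := exists_cst_mul_unit hVG₁ hf0
  obtain ⟨hN, hρN⟩ := norm_red_alpha hℓ hℓM hchar hVG₀ hVG₁ u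
  -- the reduction of `f`
  have h1 : IsRedSer A (f : LaurentSeries Qb)
      ((modρ hVG₁ u : FNk A (M * ℓ)) : LaurentSeries (kk A)) := by
    have h := isRedSer_cst_mul (isRedSer_of_modO hVG₁ u hu) hc
    rw [hfu]
    exact h
  obtain ⟨w, hw, hrw⟩ := h1.unique hr
  have hr' : r ∈ modularFunctionFieldFullC (kk A) (M * ℓ) := by
    rw [hrw]
    exact mul_mem (Fermat.Agent.Ribet.H997.C_mem_fullC _ _ w) (modρ hVG₁ u).2
  refine ⟨hr', ?_⟩
  have hrr : (⟨r, hr'⟩ : FNk A (M * ℓ))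
      = algebraMap (kk A) (FNk A (M * ℓ)) w * modρ hVG₁ u := by
    apply Subtype.ext
    show r = ((algebraMap (kk A) (FNk A (M * ℓ)) w : FNk A (M * ℓ)) : LaurentSeries (kk A))
      * ((modρ hVG₁ u : FNk A (M * ℓ)) : LaurentSeries (kk A))
    rw [coe_algebraMap_fullC, hrw]
  -- the norm of the reduction
  have hNr : normAlong (inclK M ℓ A) (⟨r, hr'⟩ : FNk A (M * ℓ))
      = algebraMap (kk A) (FNk A M) (w ^ (ℓ + 1)) * modρ hVG₀ ⟨_, hN⟩ := by
    rw [hrr, Fermat.Agent.S29.H395.normAlong_mul, normAlong_inclK_const hℓ hℓM hchar, hρN]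
  -- the norm of the function
  have hNf : normAlong (alphaQ M ℓ) f
      = algebraMap Qb (FN M) (c ^ (ℓ + 1)) * normAlong (alphaQ M ℓ) (u : FN (M * ℓ)) := by
    rw [hfu, Fermat.Agent.S29.H395.normAlong_mul, normAlong_alphaQ_const hℓ hℓM]
  have hne : modρ hVG₀ ⟨_, hN⟩ ≠ 0 := by
    rw [hρN]
    exact Fermat.Agent.S29.H395.normAlong_ne_zero _ (finiteAlong_inclK hℓ hℓM hchar) hu
  have h2 := isRedSer_of_modO hVG₀ ⟨_, hN⟩ hne
  have h3 := isRedSer_C_mul (isRedSer_cst_mul h2 (pow_ne_zero (ℓ + 1) hc)) (pow_ne_zero (ℓ + 1) hw)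
  rw [hNr, hNf]
  show IsRedSer A (cst (c ^ (ℓ + 1)) * _) (((algebraMap (kk A) (FNk A M) (w ^ (ℓ + 1)) : FNk A M) :
    LaurentSeries (kk A)) * _)
  rw [coe_algebraMap_fullC]
  exact h3

/-- **NORM-RED for Kummer functions**: if `c · h₀ · u ^ p` (`h₀` of level `M`, `u` of level
`Mℓ`) is a reduction of `f ∈ F_{Mℓ}`, then `c₁ · h₀ ^ (ℓ + 1) · v ^ p` is a reduction of `N_α f`,
with `v = N u` of level `M`. -/
theorem normRed_kummer (hq : q.Prime) (hℓ : ℓ.Prime) (hqM : ¬ q ∣ M) (hqℓ : q ≠ ℓ)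
    (hℓM : ¬ ℓ ∣ M) (hA : A.LiesOverPrime q) (p : ℕ) (f : FN (M * ℓ)) (c : kk A)
    (h₀ : FNk A M) (u : FNk A (M * ℓ)) (hc : c ≠ 0) (hu : u ≠ 0)
    (hr : IsRedSer A (f : LaurentSeries Qb)
      (HahnSeries.C c * (h₀ : LaurentSeries (kk A)) * (u : LaurentSeries (kk A)) ^ p)) :
    ∃ (c₁ : kk A) (v : FNk A M), c₁ ≠ 0 ∧ v ≠ 0 ∧
      IsRedSer A ((normAlong (alphaQ M ℓ) f : FN M) : LaurentSeries Qb)
        (HahnSeries.C c₁ * (h₀ : LaurentSeries (kk A)) ^ (ℓ + 1)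
          * (v : LaurentSeries (kk A)) ^ p) := by
  have hqMℓ : ¬ q ∣ M * ℓ := by
    intro h
    rcases (Nat.Prime.dvd_mul hq).mp h with h | h
    · exact hqM h
    · exact hqℓ ((Nat.prime_dvd_prime_iff_eq hq hℓ).mp h)
  have hchar := natCast_ne_zero_kk hq hqMℓ hA
  obtain ⟨hr', hN⟩ := normRed_alpha hq hℓ hqM hqℓ hℓM hA f _ hr
  have hrr : (⟨_, hr'⟩ : FNk A (M * ℓ))
      = algebraMap (kk A) (FNk A (M * ℓ)) c * inclK M ℓ A h₀ * u ^ p := by
    apply Subtype.ext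
    show _ = ((algebraMap (kk A) (FNk A (M * ℓ)) c : FNk A (M * ℓ)) : LaurentSeries (kk A))
      * ((inclK M ℓ A h₀ : FNk A (M * ℓ)) : LaurentSeries (kk A))
      * (u : LaurentSeries (kk A)) ^ p
    rw [coe_algebraMap_fullC, coe_inclK]
  rw [hrr, Fermat.Agent.S29.H395.normAlong_mul, Fermat.Agent.S29.H395.normAlong_mul,
    Fermat.Agent.S29.H395.normAlong_pow, normAlong_inclK_const hℓ hℓM hchar,
    normAlong_inclK_inclK hℓ hℓM hchar] at hN
  refine ⟨c ^ (ℓ + 1), normAlong (inclK M ℓ A) u, pow_ne_zero _ hc,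
    Fermat.Agent.S29.H395.normAlong_ne_zero _ (finiteAlong_inclK hℓ hℓM hchar) hu, ?_⟩
  rw [← coe_algebraMap_fullC (kk A) M (c ^ (ℓ + 1))]
  exact hN

end NormRedSec

/-! ## Renamed top level -/

section Retarget

open Fermat.Agent.S24 Fermat.Agent.Ribet.H884 Fermat.Agent.S29.H801

/-- **NORM-RED for Kummer functions**, with the top level renamed along `M * ℓ = N'` and in
the `IsRedInf` vocabulary of the wall. -/
theorem normRed_kummer_to {q M ℓ N' : ℕ} [NeZero M] [NeZero ℓ] [NeZero N'] (h : M * ℓ = N')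
    {A : ValuationSubring Kbar} (hq : q.Prime) (hℓ : ℓ.Prime) (hqM : ¬ q ∣ M) (hqℓ : q ≠ ℓ)
    (hℓM : ¬ ℓ ∣ M) (hA : A.LiesOverPrime q) (p : ℕ) (f : FF N') (c : kA A)
    (h₀ : modularFunctionFieldFullC (kA A) M) (u : modularFunctionFieldFullC (kA A) N')
    (hc : c ≠ 0) (hu : u ≠ 0)
    (hr : IsRedInf N' A f
      (HahnSeries.C c * (h₀ : LaurentSeries (kA A)) * (u : LaurentSeries (kA A)) ^ p)) :
    ∃ (c₁ : kA A) (v : modularFunctionFieldFullC (kA A) M), c₁ ≠ 0 ∧ v ≠ 0 ∧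
      IsRedInf M A (normAlong (alphaTo Kbar M ℓ N' h) f)
        (HahnSeries.C c₁ * (h₀ : LaurentSeries (kA A)) ^ (ℓ + 1)
          * (v : LaurentSeries (kA A)) ^ p) := by
  subst h
  exact normRed_kummer hq hℓ hqM hqℓ hℓM hA p f c h₀ u hc hu hr

end Retarget

end Fermat.Agent.Ribet.H924
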