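import Fermat.Agent.Ribet.H924.EigenLiftAll
import Fermat.Agent.Ribet.H523.Q3Red

/-!
# WALL-q, target (Q3) RED for ALL primes `p ≠ q` and ALL levels (helper924)

For row S59 (cell LO-Q): `Q3For p q M' (finPartQ p q M' A) (splitPartQ p q M' A)` for every pair
of primes `p ≠ q` with `q ∤ M'` — no `5 ≤ p`, no `q ≠ 2`, no condition on the level, `p ∣ M'`
allowed.

* `redEigen_all` : RED-CLASS.  The proof of `H523.Q3.redEigenQ` (helper523) never uses the
  binders `5 ≤ p`, `q ≠ 2`; it is repeated here verbatim without them.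
* `q3For_all` : (Q3) = RED-CLASS + EIGEN-LIFT (`H924.eigenLift_all`).
* `q3AllStatement` : the closed statement.
-/

set_option autoImplicit false
set_option linter.style.haveILetI false
set_option linter.unusedSectionVars false
set_option synthInstance.maxHeartbeats 400000
set_option maxHeartbeats 1000000

noncomputable section

namespace Fermat.Agent.Ribet.H924

open AlgebraicCurve ModularCurve HahnSeries
open Fermat.Agent.S24 Fermat.Agent.A2.H708 Fermat.Agent.A2.H528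
open Fermat.Agent.Ribet.Spec Fermat.Agent.Ribet.H944.Wall Fermat.Agent.Ribet.H884
open Fermat.Agent.Ribet.H158.WallQ
open Fermat.Agent.Ribet.H944.I2
open Fermat.Agent.Ribet.H523.Q3

/-- **RED-CLASS for all primes `p ≠ q`**: a new eigenclass in `𝓕 ∖ 𝒮` produces, on one of the
two components, a Kummer function of a nonzero eigenclass of `Pic⁰(X₀(M')_k)[p]`. -/
theorem redEigen_all (p q M' : ℕ) [NeZero M'] [NeZero q] [NeZero (q * M')] (hp : p.Prime)
    (hq : q.Prime) (hqM : ¬ q ∣ M') (A : ValuationSubring Kbar) (hA : A.LiesOverPrime q)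
    (S : Finset ℕ) (a : ℕ → ℤ) (x : JZero (q * M')) (hx : x ∈ finPartQ p q M' A)
    (hxS : x ∉ splitPartQ p q M' A) (heig : EigenAt (q * M') S a x) :
    ∃ (S' : Finset ℕ) (h : modularFunctionFieldFullC (kA A) M'),
      S ⊆ S' ∧ IsRedEigen p M' S' a h := by
  obtain ⟨f, hfK, r₁, r₂, hr1, hr2, hP1, hP2⟩ := finClosedQ p q M' A hx
  have hns : ¬ (PPowSeries p M' r₁ ∧ PPowSeries p M' r₂) := by
    rintro ⟨h1, h2⟩
    exact hxS (AddSubgroup.subset_closure ⟨f, hfK, r₁, r₂, hr1, hr2, h1, h2⟩)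
  have hKf : ∀ (ℓ : ℕ) [NeZero ℓ], ℓ.Prime → ℓ ∉ S → ¬ ℓ ∣ q * M' →
      KummerEigen (q * M') p ℓ (a ℓ) f :=
    fun ℓ _ hℓ hℓS hℓN => kumEig (q * M') p hp.ne_zero S a x f hfK heig ℓ hℓ hℓS hℓN
  -- the main step, for a pair `(F, r)`
  have key : ∀ (F : FF (q * M')) (r : LaurentSeries (kA A)), IsRedInf (q * M') A F r →
      PDivSeries p M' r → ¬ PPowSeries p M' r →
      (∀ (ℓ : ℕ) [NeZero ℓ], ℓ.Prime → ℓ ∉ S → ¬ ℓ ∣ q * M' →
        KummerEigen (q * M') p ℓ (a ℓ) F) →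
      ∃ (S' : Finset ℕ) (h : modularFunctionFieldFullC (kA A) M'),
        S ⊆ S' ∧ IsRedEigen p M' S' a h := by
    intro F r hFr hPr hsr hKF
    obtain ⟨h, hh, h0, hdiv⟩ := hPr
    refine ⟨S ∪ (q * M').primeFactors, h, Finset.subset_union_left, h0, hdiv,
      by rw [hh]; exact hsr, ?_⟩
    intro ℓ _ hℓ hℓS'
    have hℓS : ℓ ∉ S := fun e => hℓS' (Finset.mem_union_left _ e)
    have hℓN : ¬ ℓ ∣ q * M' := fun hd =>
      hℓS' (Finset.mem_union_right _ (Nat.mem_primeFactors.mpr ⟨hℓ, hd, NeZero.ne _⟩))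
    obtain ⟨c, G, hc, hG, hN⟩ := hKF ℓ hℓ hℓS hℓN
    have h1 : IsRedInf (q * M') A (hNorm (q * M') ℓ F) (Fermat.Agent.S37.H697.knorm ℓ r) :=
      Fermat.Agent.Ribet.H376.heckeRed (q * M') ℓ hℓ hℓN A F r hFr
    obtain ⟨rG, hrG⟩ := (Fermat.Agent.Ribet.H997.redExists q (q * M') hq A hA G hG).1
    have h2 : IsRedInf (q * M') A (hNorm (q * M') ℓ F) (1 * r ^ (a ℓ) * rG ^ p) := by
      rw [hN]
      exact isRedInf_mul _ A (isRedInf_mul _ A (isRedInf_const _ A hc)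
        (isRedInf_zpow _ A hFr (a ℓ))) (isRedInf_pow _ A hrG p)
    obtain ⟨-, cb, hcb, hEq⟩ :=
      Fermat.Agent.Ribet.H997.redUnique q (q * M') hq A hA _ _ _ h2 h1
    have hrG0 : rG ≠ 0 := (isRedInf_ne_zero _ A hrG).2
    obtain ⟨Gk, hGk⟩ :=
      Fermat.Agent.Ribet.H997.redField q M' hq hqM A hA G rG (Or.inl hrG)
    refine ⟨cb, Gk, hcb, fun e => hrG0 (by rw [← hGk, e]; rfl), ?_⟩
    rw [← Fermat.Agent.Ribet.H376.knorm_eq_kronNorm, hh, hGk, hEq, one_mul, mul_assoc]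
  by_cases hs1 : PPowSeries p M' r₁
  · have hs2 : ¬ PPowSeries p M' r₂ := fun h2 => hns ⟨hs1, h2⟩
    exact key (wF (q * M') f) r₂ hr2 hP2 hs2
      (fun ℓ _ hℓ hℓS hℓN =>
        (hKf ℓ hℓ hℓS hℓN).fricke Fermat.Agent.Ribet.H376.frickeHecke hℓ hℓN)
  · exact key f r₁ hr1 hP1 hs1 hKf

/-- **(Q3) RED for all primes `p ≠ q` and all levels**, for the intrinsic subgroups. -/
theorem q3For_all (p q M' : ℕ) [NeZero M'] [NeZero q] [NeZero (q * M')] (hp : p.Prime)
    (hq : q.Prime) (hqp : q ≠ p) (hqM : ¬ q ∣ M') (A : ValuationSubring Kbar)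
    (hA : A.LiesOverPrime q) :
    Q3For p q M' (finPartQ p q M' A) (splitPartQ p q M' A) := by
  intro S a x hx hxS _ heig
  obtain ⟨S', h, hSS', hh⟩ := redEigen_all p q M' hp hq hqM A hA S a x hx hxS heig
  obtain ⟨S'', hS'', hocc⟩ := eigenLift_all hp hq hqp hqM hA S' a h hh
  exact ⟨S'', hSS'.trans hS'', Or.inl hocc⟩

/-- **(Q3) RED**, closed statement: all primes `p ≠ q`, all levels `M'` prime to `q`. -/
def Q3AllStatement : Prop :=
  ∀ (p q M' : ℕ) [NeZero M'] [NeZero q] [NeZero (q * M')], p.Prime → q.Prime → q ≠ p →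
    ¬ q ∣ M' →
    ∀ A : ValuationSubring Kbar, A.LiesOverPrime q →
      Q3For p q M' (finPartQ p q M' A) (splitPartQ p q M' A)

theorem q3AllStatement : Q3AllStatement :=
  fun p q M' _ _ _ hp hq hqp hqM A hA => q3For_all p q M' hp hq hqp hqM A hA

end Fermat.Agent.Ribet.H924

end
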