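import Fermat.Agent.Ribet.H924.NormRed
import Fermat.Agent.Ribet.H523.Q3Spec

/-!
# Row 37, WALL-q, leaf (Q3) EIGEN-LIFT-3 (helper924): the step UP

A Kummer function `h ∈ k(X₀(M))` of a nonzero eigenclass (`IsRedEigen p M S a h`) is still one
when viewed in `k(X₀(Mℓ))`, for a prime `ℓ ∤ M` with `gcd (ℓ + 1, p) = 1` (`char k ∤ Mℓ`):

* orders at the places of `k(X₀(Mℓ))` are multiples of the orders at the restricted places
  (Prelude `Place.ord_restrict`);
* if `h = c · g ^ p` in `k(X₀(Mℓ))` then `h ^ (ℓ + 1) = c ^ (ℓ + 1) · (N g) ^ p`, so `h` is a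
  constant times a `p`-th power already in `k(X₀(M))` (Bezout);
* the eigen-relations are relations between series.
-/

set_option autoImplicit false
set_option linter.style.haveILetI false
set_option linter.unusedSectionVars false
set_option synthInstance.maxHeartbeats 400000
set_option maxHeartbeats 1600000

noncomputable section

namespace Fermat.Agent.Ribet.H924

open AlgebraicCurve ModularCurve HahnSeries IsLocalRing
open Fermat.Agent.S24 Fermat.Agent.A2.H708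
open Fermat.Agent.S37.Red (Qb FN FNk)
open Fermat.Agent.Ribet.H158.WallQ (PPowSeries)
open Fermat.Agent.Ribet.H523.Q3 (KronEigen IsRedEigen)
open Fermat.Agent.S29.H395 (normAlong)

section Up

variable {p M ℓ : ℕ} [NeZero M] [NeZero ℓ] {A : ValuationSubring Qb}

/-- Bezout. -/
theorem exists_bezout_int {d p : ℕ} (h : Nat.Coprime d p) :
    ∃ s t : ℤ, (d : ℤ) * s + (p : ℤ) * t = 1 := by
  refine ⟨Nat.gcdA d p, Nat.gcdB d p, ?_⟩
  have := Nat.gcd_eq_gcd_ab d p
  rw [h] at this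
  rw [← this]
  simp

/-- descent of "constant times a `p`-th power" from `k(X₀(Mℓ))` to `k(X₀(M))`. -/
theorem pPowSeries_down (hℓ : ℓ.Prime) (hℓM : ¬ ℓ ∣ M) (hcop : Nat.Coprime (ℓ + 1) p)
    (hchar : ∀ r : ℕ, r.Prime → r ∣ M * ℓ → ((r : ℕ) : kk A) ≠ 0) (h : FNk A M) (hh0 : h ≠ 0)
    (hpow : PPowSeries p (M * ℓ) (h : LaurentSeries (kk A))) :
    PPowSeries p M (h : LaurentSeries (kk A)) := by
  obtain ⟨c, g, hc, hg, hhg⟩ := hpow
  letI alg₁ : Algebra (FNk A M) (FNk A (M * ℓ)) := algebraAlong (inclK M ℓ A)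
  have hfr₁ : Module.finrank (FNk A M) (FNk A (M * ℓ)) = ℓ + 1 := finrank_inclK hℓ hℓM hchar
  haveI : FiniteDimensional (FNk A M) (FNk A (M * ℓ)) :=
    Module.finite_of_finrank_pos (by rw [hfr₁]; omega)
  obtain ⟨s, t, hst⟩ := exists_bezout_int hcop
  have e1 : algebraMap (FNk A M) (FNk A (M * ℓ)) h
      = algebraMap (FNk A M) (FNk A (M * ℓ)) (algebraMap (kk A) (FNk A M) c) * g ^ p := by
    apply Subtype.ext
    show ((inclK M ℓ A h : FNk A (M * ℓ)) : LaurentSeries (kk A))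
      = ((inclK M ℓ A (algebraMap (kk A) (FNk A M) c) : FNk A (M * ℓ)) : LaurentSeries (kk A))
        * (g : LaurentSeries (kk A)) ^ p
    rw [coe_inclK, coe_inclK, coe_algebraMap_fullC]
    exact hhg
  have key := eq_zpow_mul_pow_of_norm p hh0 e1 s t (by rw [hfr₁]; exact_mod_cast hst)
  rw [hfr₁] at key
  have hNg : Algebra.norm (FNk A M) g ≠ 0 := Algebra.norm_ne_zero_iff.mpr hg
  refine ⟨(c ^ (ℓ + 1)) ^ s, Algebra.norm (FNk A M) g ^ s * h ^ t,
    zpow_ne_zero _ (pow_ne_zero _ hc), mul_ne_zero (zpow_ne_zero _ hNg) (zpow_ne_zero _ hh0), ?_⟩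
  have key' := congrArg (fun z : FNk A M => (z : LaurentSeries (kk A))) key
  have e2 : ((algebraMap (kk A) (FNk A M) c ^ (ℓ + 1)) ^ s : FNk A M)
      = algebraMap (kk A) (FNk A M) ((c ^ (ℓ + 1)) ^ s) := by
    rw [map_zpow₀, map_pow]
  rw [e2] at key'
  refine key'.trans ?_
  show ((algebraMap (kk A) (FNk A M) ((c ^ (ℓ + 1)) ^ s) : FNk A M) : LaurentSeries (kk A))
    * ((Algebra.norm (FNk A M) g ^ s * h ^ t : FNk A M) : LaurentSeries (kk A)) ^ p = _
  rw [coe_algebraMap_fullC]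

/-- **UP**: a Kummer function of a nonzero eigenclass at level `M` is one at level `Mℓ`. -/
theorem isRedEigen_up (hℓ : ℓ.Prime) (hℓM : ¬ ℓ ∣ M) (hcop : Nat.Coprime (ℓ + 1) p)
    (hchar : ∀ r : ℕ, r.Prime → r ∣ M * ℓ → ((r : ℕ) : kk A) ≠ 0) {S : Finset ℕ} {a : ℕ → ℤ}
    {h : FNk A M} (hh : IsRedEigen p M S a h) :
    IsRedEigen p (M * ℓ) S a (inclK M ℓ A h) := by
  obtain ⟨hh0, hord, hnpow, heig⟩ := hh
  letI alg₁ : Algebra (FNk A M) (FNk A (M * ℓ)) := algebraAlong (inclK M ℓ A)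
  haveI : IsScalarTower (kk A) (FNk A M) (FNk A (M * ℓ)) := isScalarTower_along (inclK M ℓ A)
  have hfr₁ : Module.finrank (FNk A M) (FNk A (M * ℓ)) = ℓ + 1 := finrank_inclK hℓ hℓM hchar
  haveI : FiniteDimensional (FNk A M) (FNk A (M * ℓ)) :=
    Module.finite_of_finrank_pos (by rw [hfr₁]; omega)
  haveI : Algebra.IsIntegral (FNk A M) (FNk A (M * ℓ)) := Algebra.IsIntegral.of_finite _ _
  refine ⟨?_, ?_, ?_, ?_⟩
  · exact (map_ne_zero_iff _ (inclK M ℓ A).injective).mpr hh0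
  · intro Q
    have h1 : Q.ord (inclK M ℓ A h)
        = Place.ramificationIndex (F := FNk A M) Q * (Q.restrict (FNk A M)).ord h :=
      Q.ord_restrict (F := FNk A M) h
    rw [h1]
    exact Dvd.dvd.mul_left (hord _) _
  · intro hpow
    apply hnpow
    rw [coe_inclK] at hpow
    exact pPowSeries_down hℓ hℓM hcop hchar h hh0 hpow
  · intro ℓ' _ hℓ' hℓ'S
    obtain ⟨c, G, hc, hG, hrel⟩ := heig ℓ' hℓ' hℓ'S
    refine ⟨c, inclK M ℓ A G, hc, (map_ne_zero_iff _ (inclK M ℓ A).injective).mpr hG, ?_⟩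
    rw [coe_inclK, coe_inclK]
    exact hrel

end Up

end Fermat.Agent.Ribet.H924
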